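import Fermat.Agent.MazurStep.Moduli.Values
import Fermat.Agent.MFGenus.Classify
import Fermat.Agent.Kummer.Canonical

/-!
# The two cusps of `X₀(p)` and the divisor of `Δ(τ)/Δ(pτ)`

`exists_cusps`: there are two places `vInf`, `vZero`, fixed by Galois, where `Δ(τ)/Δ(pτ)` has the
orders `1 - p` and `p - 1`, and it has no other zero or pole. The order at `vInf` of any function is
the order of its `q`-expansion.
-/

set_option autoImplicit false
attribute [-instance] IsScalarTower.of_algHom

noncomputable section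

open CongruenceSubgroup ModularCurve AlgebraicCurve
open UpperHalfPlane hiding I
open scoped MatrixGroups

namespace Fermat.Agent.MazurStep.Moduli

open Fermat.Agent Fermat.Agent.Kummer Fermat.Agent.MFGenus

local notation "Qbar" => AlgebraicClosure ℚ
local notation "ΓQ" => (AlgebraicClosure ℚ ≃ₐ[ℚ] AlgebraicClosure ℚ)

theorem order_coeffMap_field {R S : Type*} [Field R] [Field S] (f : R →+* S)
    (s : LaurentSeries R) : (coeffMap f s).order = s.order := by
  rcases eq_or_ne s 0 with rfl | hs
  · simp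
  have hne : (coeffMap f s).coeff s.order ≠ 0 := by
    rw [coeffMap_coeff]
    exact (map_ne_zero f).2 (HahnSeries.coeff_order_eq_zero.not.2 hs)
  have ht : coeffMap f s ≠ 0 := fun h => hne (by rw [h]; rfl)
  refine le_antisymm (HahnSeries.order_le_of_coeff_ne_zero hne)
    (HahnSeries.order_le_of_coeff_ne_zero fun h0 => ?_)
  exact HahnSeries.coeff_order_eq_zero.not.2 ht (by rw [coeffMap_coeff, h0, map_zero])

theorem order_qExpand_one_jq : (qExpand ℚ 1 jq).order = -1 := by
  have hc : ∀ k : ℤ, (qExpand ℚ 1 jq).coeff k = jq.coeff k := fun k => by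
    conv_lhs => rw [show k = ((1 : ℕ) : ℤ) * k by simp]
    exact qExpand_coeff_mul 1 jq k
  have e : qExpand ℚ 1 jq = jq := HahnSeries.ext (funext hc)
  rw [e]
  refine le_antisymm (HahnSeries.order_le_of_coeff_ne_zero (by rw [coeff_jq_neg_one]; norm_num)) ?_
  by_contra hlt
  exact HahnSeries.coeff_order_eq_zero.not.2 jq_ne_zero (coeff_jq_of_lt (not_le.1 hlt))

variable (p : ℕ) [NeZero p]

omit [NeZero p] in
theorem qOrder_jElt : qOrder (jElt Qbar p) = -1 :=
  (order_coeffMap_field (algebraMap ℚ Qbar) (qExpand ℚ 1 jq)).trans order_qExpand_one_jq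

/-- `Δ(τ)/Δ(pτ)` has order `1 - p` at `∞`. -/
theorem qOrder_eElt : qOrder (eElt p) = 1 - (p : ℤ) :=
  (order_coeffMap_field (algebraMap ℚ Qbar) (modularUnitSeries p)).trans (order_modularUnitSeries p)

omit [NeZero p] in
theorem qOrder_arithmeticGalois_smul (σ : ΓQ) (f : modularFunctionFieldBar p) :
    qOrder (arithmeticGalois (modularFunctionFieldFull p) σ • f) = qOrder f := by
  rw [qOrder, qOrder, coe_arithmeticGalois_smul]
  exact order_coeffMap_field _ _

/-- The place `∞` of `X₀(p)`: the order of the expansion in `q`. -/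
theorem exists_infty_place : ∃ v : Place Qbar (modularFunctionFieldBar p),
    ∀ f : modularFunctionFieldBar p, v.ord f = (f : LaurentSeries Qbar).order := by
  have hj0 : jElt Qbar p ≠ 0 := fun h => by
    have := qOrder_jElt p
    rw [h, qOrder] at this
    simp at this
  have hinv : qOrder (jElt Qbar p)⁻¹ = 1 := by
    rw [isOrd_qOrder.map_inv hj0, qOrder_jElt]
    norm_num
  rcases exists_place_of_isOrd (K := Qbar) (isOrd_qOrder (L := Qbar) (N := p))
    qOrder_algebraMap with h | ⟨v, e, he0, he⟩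
  · exact absurd (h _ hj0) (by rw [qOrder_jElt]; norm_num)
  refine ⟨v, fun f => ?_⟩
  have h1 := he _ (inv_ne_zero hj0)
  rw [hinv] at h1
  have he1 : e = 1 := by
    rcases Int.eq_one_or_neg_one_of_mul_eq_one (show e * v.ord (jElt Qbar p)⁻¹ = 1 by
      rw [mul_comm]; exact h1.symm) with h | h <;> omega
  rcases eq_or_ne f 0 with rfl | hf
  · simp
  · have h2 := he f hf
    rw [he1, mul_one] at h2
    exact h2.symm

/-- There are exactly two places over `j = ∞`. -/
theorem card_cusp_places (hp : p.Prime) :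
    Nat.card {v : Place Qbar (modularFunctionFieldBar p) // 0 < v.ord (jElt Qbar p)⁻¹} = 2 := by
  obtain ⟨e, -⟩ := exists_cusp_equiv (N := p) qbarToC
  rw [← Nat.card_congr e, Cosets.card_T_orbits, cuspCount, hp.divisors,
    Finset.sum_pair hp.one_lt.ne, Nat.div_one, Nat.div_self hp.pos]
  simp

theorem eElt_ne_zero : eElt p ≠ 0 := fun h => by
  have := qOrder_eElt p
  rw [h, qOrder] at this
  simp only [ZeroMemClass.coe_zero, HahnSeries.order_zero] at this
  have h2 := (coe_eElt p).symm.trans (congrArg Subtype.val h)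
  have h3 := congrArg (fun s : LaurentSeries Qbar => s.coeff (1 - (p : ℤ))) h2
  simp [coeff_modularUnitSeries_self] at h3

/-- Away from `j = ∞` the unit `Δ(τ)/Δ(pτ)` has neither zeros nor poles. -/
theorem ord_eElt_eq_zero {v : Place Qbar (modularFunctionFieldBar p)}
    (hv : ¬ 0 < v.ord (jElt Qbar p)⁻¹) : v.ord (eElt p) = 0 := by
  obtain ⟨hmem, hze⟩ := exists_embed_modularUnit qbarToC p
  rcases exists_tau_or_cusp (N := p) qbarToC v with ⟨τ, h, hh, hord⟩ | ⟨q, hord⟩
  · have hD : ModularForm.discriminant ≠ 0 := fun h0 =>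
      ModularForm.discriminant_ne_zero τ (congrFun h0 τ)
    have hN : MFCore.deltaN p ≠ 0 := fun h0 =>
      ModularForm.discriminant_ne_zero _ (congrFun h0 τ)
    have hne : embed qbarToC p (eElt p) ≠ 0 := (map_ne_zero _).2 (eElt_ne_zero p)
    have key := congrArg (ordPoint τ) (show embed qbarToC p (eElt p) *
      MeroH.ofHol (MFCore.deltaN p) MFCore.deltaN_isForm.holo = _ from hze)
    rw [(isOrd_ordPoint τ).map_mul _ _ hne (ofHol_ne_zero _ hN),
      ordPoint_ofHol_nonneg τ _ hN (ModularForm.discriminant_ne_zero _),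
      ordPoint_ofHol_nonneg τ _ hD (ModularForm.discriminant_ne_zero _), add_zero,
      hord _ (eElt_ne_zero p)] at key
    exact (mul_eq_zero.1 key).resolve_left (by exact_mod_cast hh.ne')
  · refine absurd ?_ hv
    have hj0 : jElt Qbar p ≠ 0 := fun h => transcendental_jElt (N := p) qbarToC
      (h ▸ isAlgebraic_zero)
    have h1 := hord _ (inv_ne_zero hj0)
    rw [ordInfty_cuspEmbed_inv] at h1
    by_contra h2
    have hN : (0 : ℤ) < p := by exact_mod_cast NeZero.pos p
    nlinarith [Int.natCast_nonneg (p / Cosets.cuspWidth q)]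

/-- **The cusps of `X₀(p)` and the divisor of `Δ(τ)/Δ(pτ)`.** -/
theorem exists_cusps (hp : p.Prime) :
    ∃ vInf vZero : Place Qbar (modularFunctionFieldBar p), vInf ≠ vZero ∧
      (∀ f : modularFunctionFieldBar p, vInf.ord f = (f : LaurentSeries Qbar).order) ∧
      (∀ σ : ΓQ, arithmeticGalois (modularFunctionFieldFull p) σ • vInf = vInf) ∧
      (∀ σ : ΓQ, arithmeticGalois (modularFunctionFieldFull p) σ • vZero = vZero) ∧
      vInf.ord (eElt p) = 1 - (p : ℤ) ∧ vZero.ord (eElt p) = (p : ℤ) - 1 ∧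
      ∀ v, v ≠ vInf → v ≠ vZero → v.ord (eElt p) = 0 := by
  classical
  obtain ⟨vi, hvi⟩ := exists_infty_place p
  have hpos : 0 < vi.ord (jElt Qbar p)⁻¹ := by
    rw [vi.ord_inv, hvi, show ((jElt Qbar p : modularFunctionFieldBar p) :
      LaurentSeries Qbar).order = -1 from qOrder_jElt p]
    norm_num
  obtain ⟨⟨v0, hv0pos⟩, hv0ne, huniq⟩ := (Nat.card_eq_two_iff' ⟨vi, hpos⟩).1 (card_cusp_places p hp)
  have hne : v0 ≠ vi := fun h => hv0ne (Subtype.ext h)
  have honly : ∀ v, 0 < v.ord (jElt Qbar p)⁻¹ → v ≠ vi → v = v0 := fun v hv h =>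
    congrArg Subtype.val (huniq ⟨v, hv⟩ fun h' => h (congrArg Subtype.val h'))
  have hoff : ∀ v, v ≠ vi → v ≠ v0 → v.ord (eElt p) = 0 := fun v h1 h2 =>
    ord_eElt_eq_zero p fun h => h2 (honly v h h1)
  have hjfix : ∀ σ : ΓQ, arithmeticGalois (modularFunctionFieldFull p) σ • (jElt Qbar p)⁻¹ =
      (jElt Qbar p)⁻¹ := fun σ => by
    rw [smul_inv'']
    exact congrArg (·⁻¹)
      (Subtype.ext ((coe_arithmeticGalois_smul _ σ _).trans (coeffMap_coeffEmb σ _)))
  have hifix : ∀ σ : ΓQ, arithmeticGalois (modularFunctionFieldFull p) σ • vi = vi := by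
    intro σ
    set g := arithmeticGalois (modularFunctionFieldFull p) σ
    have h : ∀ f : modularFunctionFieldBar p, f ≠ 0 → (g • vi).ord f = vi.ord f := fun f _ => by
      conv_lhs => rw [← smul_inv_smul g f, SemilinearAut.ord_smul]
      rw [hvi, hvi, ← map_inv]
      exact qOrder_arithmeticGalois_smul p σ⁻¹ f
    refine place_eq_of_le _ _ fun f hf => ?_
    rcases eq_or_ne f 0 with rfl | hf0
    · exact zero_mem _
    rw [mem_iff_ord_nonneg _ hf0, h f hf0]
    exact ord_nonneg_of_mem vi hf
  refine ⟨vi, v0, hne.symm, hvi, hifix, fun σ => ?_, ?_, ?_, hoff⟩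
  · set g := arithmeticGalois (modularFunctionFieldFull p) σ
    refine honly _ ?_ fun h => hne (smul_left_cancel g (h.trans (hifix σ).symm))
    rw [← hjfix σ, SemilinearAut.ord_smul]
    exact hv0pos
  · rw [hvi]; exact qOrder_eElt p
  · have hdeg := FF.degree_divOf (K := Qbar) (eElt p)
    have hD : FF.divOf Qbar (eElt p) =
        Finsupp.single vi (vi.ord (eElt p)) + Finsupp.single v0 (v0.ord (eElt p)) := by
      refine Finsupp.ext fun v => ?_
      rw [FF.divOf_apply, Finsupp.add_apply, Finsupp.single_apply, Finsupp.single_apply]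
      by_cases h1 : vi = v
      · subst h1
        rw [if_pos rfl, if_neg hne, add_zero]
      by_cases h2 : v0 = v
      · subst h2
        rw [if_neg h1, if_pos rfl, zero_add]
      rw [if_neg h1, if_neg h2, add_zero]
      exact hoff v (Ne.symm h1) (Ne.symm h2)
    rw [hD, map_add, Divisor.degree_single, Divisor.degree_single, FF.deg_eq_one, FF.deg_eq_one,
      hvi, show (eElt p : LaurentSeries Qbar).order = 1 - (p : ℤ) from qOrder_eElt p] at hdeg
    push_cast at hdeg
    linarith

end Fermat.Agent.MazurStep.Moduli
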