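import Fermat.Agent.Multiplicative.NodeExists
import Mathlib.Data.ZMod.Basic
import Mathlib.Algebra.Field.ZMod

/-!
# The 2-division polynomial on the multiples of a point of odd prime order, nodal reduction

For `P` of odd prime order `p` prime to the residue characteristic: `∏ₐ ψ₂(aP)⁴` has absolute value
`1` if `P` lies on the identity component, and at most `|Δ| ^ (p-1)` otherwise.
-/

set_option autoImplicit false

namespace Fermat.Agent.MazurStep.Moduli

open WeierstrassCurve Fermat.Agent.Multiplicative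

theorem sum_min_range (m : ℕ) :
    ∑ r ∈ Finset.range (2 * m + 1), min r (2 * m + 1 - r) = m * (m + 1) := by
  induction m with
  | zero => rfl
  | succ m ih =>
    rw [show 2 * (m + 1) + 1 = (2 * m + 1 + 1) + 1 by ring, Finset.sum_range_succ',
      Finset.sum_congr rfl fun r hr => show min (r + 1) (2 * m + 1 + 1 + 1 - (r + 1)) =
        min r (2 * m + 1 - r) + 1 by have := Finset.mem_range.1 hr; omega,
      Finset.sum_range_succ, Finset.sum_add_distrib, ih]
    simp
    ring

section Psi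

variable {K : Type*} [Field K] (V : WeierstrassCurve K)

/-- `ψ₂` on points, with the value `1` at infinity. -/
def psiPoint : V.toAffine.Point → K
  | .zero => 1
  | .some x y _ => 2 * y + V.a₁ * x + V.a₃

@[simp] theorem psiPoint_some {x y : K} (h : V.toAffine.Nonsingular x y) :
    psiPoint V (.some x y h) = 2 * y + V.a₁ * x + V.a₃ := rfl

/-- `∏ ψ₂(a P)⁴` over `a ≠ 0` modulo `p`. -/
noncomputable def psiProd [DecidableEq K] (p : ℕ) [NeZero p] (P : V.toAffine.Point) : K :=
  ∏ a ∈ (Finset.univ : Finset (ZMod p)).erase 0, psiPoint V (a.val • P) ^ 4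

end Psi

section Node

variable {K : Type*} [Field K] [DecidableEq K] {Γ₀ : Type*} [LinearOrderedCommGroupWithZero Γ₀]
variable {v : Valuation K Γ₀} {V : WeierstrassCurve K} (N : NodeData v V)

omit [DecidableEq K] in
/-- The value of `ψ₂` in the coordinates of the nodal model. -/
theorem v_psi_eq (x y : K) :
    v (2 * y + V.a₁ * x + V.a₃) = v (N.Y x y + (N.X x + N.Y x y)) := by
  have e : 2 * y + V.a₁ * x + V.a₃ = N.u ^ 3 * (N.Y x y + (N.X x + N.Y x y)) := by
    have hu := N.u_ne_zero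
    simp only [NodeData.X, NodeData.Y]
    field_simp
    linear_combination (x - N.r) * N.eq₁ + N.eq₃
  rw [e, map_mul, map_pow, N.hu, one_pow, one_mul]

variable {p : ℕ} {P : V.toAffine.Point}

/-- `ψ₂` has value `1` at a point of order `p` on the identity component. -/
theorem v_psiPoint_of_good (hp : p.Prime) (hp2 : p ≠ 2) (hvp : v (p : K) = 1) (hP0 : P ≠ 0)
    (hPp : p • P = 0) (hG : N.Good P) : v (psiPoint V P) = 1 := by
  have hmem := N.mem_E0.2 hG
  have hker : ∀ Q ∈ N.E0, p • Q = 0 → v (N.phiPoint Q - 1) < 1 → Q = 0 :=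
    fun Q hQ hQp hlt => N.eq_zero_of_nsmul_eq_zero hQ hlt hvp hQp
  rcases P with _ | ⟨x, y, h⟩
  · exact absurd rfl hP0
  set X := N.X x
  set Y := N.Y x y
  have hon : OnNode N.a X Y := N.onNode h.left
  have hX : 1 ≤ v X := hG
  obtain ⟨hsum, hle, hsq⟩ := good_vals N.ha hon hX
  have hX0 : 0 < v X := zero_lt_one.trans_le hX
  have hX1 : v X = 1 := by
    by_contra hne
    have hlt : v X < v Y := hle.lt_of_ne fun he => hne (by
      rw [← he] at hsq
      exact mul_left_cancel₀ (mul_ne_zero hX0.ne' hX0.ne') ((hsq.symm).trans (mul_one _).symm))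
    refine hP0 (hker _ hmem hPp ?_)
    change v (phi X Y - 1) < 1
    rw [v_phi_sub_one N.ha hon hX, div_lt_one₀ (hX0.trans hlt)]
    exact hlt
  have hY1 : v Y = 1 := by
    rw [hX1, mul_one, mul_one, ← pow_two] at hsq
    exact (pow_eq_one_iff_of_nonneg zero_le two_ne_zero).1 hsq
  rw [psiPoint_some, v_psi_eq N]
  have hφ : Y + (X + Y) = (X + Y) * (phi X Y + 1) := by
    rw [phi, mul_add, mul_div_cancel₀ _ (sum_ne_zero N.ha hon hX), mul_one]
  have hφ1 : v (phi X Y + 1) ≤ 1 :=
    Valuation.map_add_le v (v_phi N.ha hon hX).le (map_one v).le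
  rw [hφ, map_mul, hsum, hY1, one_mul]
  refine hφ1.antisymm (not_lt.1 fun hlt => ?_)
  set Q : V.toAffine.Point := .some x y h
  have h2 : v (N.phiPoint (Q + Q) - 1) < 1 := by
    rw [show N.phiPoint (Q + Q) - 1 = (N.phiPoint (Q + Q) - N.phiPoint Q * N.phiPoint Q) +
      (phi X Y - 1) * (phi X Y + 1) by simp only [Q, NodeData.phiPoint, X, Y]; ring]
    refine Valuation.map_add_lt v (N.phiPoint_add_lt_one hmem hmem) ?_
    rw [map_mul]
    exact (mul_le_of_le_one_left zero_le
      (Valuation.map_sub_le v (v_phi N.ha hon hX).le (map_one v).le)).trans_lt hlt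
  have h20 := hker _ (add_mem hmem hmem) (by rw [smul_add, hPp, add_zero]) h2
  refine hP0 ((AddMonoid.addOrderOf_eq_one_iff).1 ?_)
  have d1 : addOrderOf Q ∣ p := addOrderOf_dvd_iff_nsmul_eq_zero.2 hPp
  have d2 : addOrderOf Q ∣ 2 := addOrderOf_dvd_iff_nsmul_eq_zero.2 (by rw [two_nsmul]; exact h20)
  have hc : Nat.Coprime p 2 := (Nat.coprime_primes hp Nat.prime_two).2 hp2
  exact Nat.eq_one_of_dvd_coprimes hc d1 d2

omit [DecidableEq K] in
/-- Off the identity component: the bound by the component. -/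
theorem v_psiPoint_pow_le {r : ℕ} (hr : r ≤ p) (hG : ¬ N.Good P)
    (hw : N.wPoint P ^ p = v N.a ^ r) :
    v (psiPoint V P) ^ p ≤ v N.a ^ min r (p - r) := by
  rcases P with _ | ⟨x, y, h⟩
  · exact absurd trivial hG
  set X := N.X x
  set Y := N.Y x y
  have hX : v X < 1 := not_le.1 hG
  have ha0 : 0 < v N.a := zero_lt_iff.2 ((map_ne_zero v).2 N.ha₀)
  change (wv v N.a X Y) ^ p = _ at hw
  rw [psiPoint_some, v_psi_eq N]
  rw [wv, if_pos hX] at hw
  have hmono : ∀ {i : ℕ}, min r (p - r) ≤ i → v N.a ^ i ≤ v N.a ^ min r (p - r) :=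
    fun hi => pow_le_pow_of_le_one zero_le N.ha.le hi
  by_cases hle : v (X + Y) ≤ v Y
  · rw [if_pos hle] at hw
    calc v (Y + (X + Y)) ^ p ≤ v Y ^ p :=
          pow_le_pow_left₀ zero_le (Valuation.map_add_le v le_rfl hle) p
      _ ≤ _ := hw ▸ hmono (min_le_left _ _)
  · rw [if_neg hle] at hw
    have hXY : v (X + Y) ≠ 0 := fun h0 => hle (by rw [h0]; exact zero_le)
    have h1 : v (X + Y) ^ p = v N.a ^ (p - r) := by
      have e : v N.a ^ p = v N.a ^ r * v (X + Y) ^ p := by
        rw [← hw, div_pow, div_mul_cancel₀ _ (pow_ne_zero _ hXY)]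
      refine (mul_left_cancel₀ (pow_ne_zero r ha0.ne') ?_).symm
      rw [← e, ← pow_add, Nat.add_sub_cancel' hr]
    calc v (Y + (X + Y)) ^ p ≤ v (X + Y) ^ p :=
          pow_le_pow_left₀ zero_le (Valuation.map_add_le v (not_le.1 hle).le le_rfl) p
      _ ≤ _ := h1 ▸ hmono (min_le_right _ _)

/-- **The criterion**: `psiProd` has value `1` on the identity component, and `≤ |a| ^ (p - 1)`
off it. -/
theorem v_psiProd [NeZero p] (hp : p.Prime) (hp2 : p ≠ 2) (hvp : v (p : K) = 1) (hP0 : P ≠ 0)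
    (hPp : p • P = 0) :
    (N.Good P → v (psiProd V p P) = 1) ∧
      (¬ N.Good P → v (psiProd V p P) ≤ v N.a ^ (p - 1)) := by
  have := Fact.mk hp
  have hord : addOrderOf P = p := addOrderOf_eq_prime hPp hP0
  have hmul0 : ∀ a : ZMod p, a ≠ 0 → a.val • P ≠ 0 := by
    intro a ha h0
    have hd := addOrderOf_dvd_iff_nsmul_eq_zero.2 h0
    rw [hord] at hd
    exact ha ((ZMod.val_eq_zero a).1 (Nat.eq_zero_of_dvd_of_lt hd a.val_lt))
  have hmulp : ∀ a : ZMod p, p • (a.val • P) = 0 := fun a => by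
    rw [smul_comm, hPp, smul_zero]
  refine ⟨fun hG => ?_, fun hG => ?_⟩
  · rw [psiProd, map_prod]
    refine Finset.prod_eq_one fun a ha => ?_
    rw [map_pow, v_psiPoint_of_good N hp hp2 hvp (hmul0 a (Finset.ne_of_mem_erase ha)) (hmulp a)
      (N.mem_E0.1 (N.E0.nsmul_mem (N.mem_E0.2 hG) _)), one_pow]
  have ha0 : 0 < v N.a := zero_lt_iff.2 ((map_ne_zero v).2 N.ha₀)
  have ha1 := N.ha
  have hpos : ∀ R, 0 < N.wPoint R := fun R => zero_lt_iff.2 (N.wPoint_ne_zero R)
  -- the class of `P` has order `p`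
  have hclass : ∀ n : ℕ, ∃ m : ℤ, N.wPoint (n • P) = N.wPoint P ^ n * v N.a ^ m := by
    intro n
    have h := map_nsmul N.comp n P
    rw [N.comp_apply, N.comp_apply, ← ofMul_pow] at h
    have h' := Additive.ofMul.injective h
    rw [NodeData.cls, NodeData.cls, ← QuotientGroup.mk_pow, eq_comm, QuotientGroup.eq,
      Subgroup.mem_zpowers_iff] at h'
    obtain ⟨m, hm⟩ := h'
    refine ⟨m, ?_⟩
    have hm' := congrArg Units.val hm
    simp only [Units.val_zpow_eq_zpow_val, Units.val_mk0, Units.val_mul, Units.val_inv_eq_inv_val,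
      Units.val_pow_eq_pow_val] at hm'
    rw [hm', mul_inv_cancel_left₀ (pow_ne_zero _ (hpos P).ne')]
  obtain ⟨m₀, hm₀⟩ := hclass p
  rw [hPp, show N.wPoint 0 = 1 from rfl] at hm₀
  obtain ⟨k, hk⟩ : ∃ k : ℤ, N.wPoint P ^ p = v N.a ^ k :=
    ⟨-m₀, by rw [zpow_neg]; exact eq_inv_of_mul_eq_one_left hm₀.symm⟩
  -- the components of the multiples
  have hrange : ∀ (R : V.toAffine.Point), ¬ N.Good R → ∀ j : ℤ, N.wPoint R ^ p = v N.a ^ j →
      0 < j ∧ j < p := by
    intro R hR j hj
    rcases N.wPoint_mem R with ⟨-, hg⟩ | ⟨l1, l2, -⟩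
    · exact absurd hg hR
    have u1 : v N.a ^ (p : ℤ) < v N.a ^ j := by
      rw [← hj, zpow_natCast]; exact pow_lt_pow_left₀ l1 zero_le hp.ne_zero
    have u2 : v N.a ^ j < v N.a ^ (0 : ℤ) := by
      rw [← hj, zpow_zero]; exact pow_lt_one₀ zero_le l2 hp.ne_zero
    exact ⟨(zpow_lt_zpow_iff_right_of_lt_one₀ ha0 ha1).1 u2,
      (zpow_lt_zpow_iff_right_of_lt_one₀ ha0 ha1).1 u1⟩
  obtain ⟨hk0, hkp⟩ := hrange P hG k hk
  have hkne : (k : ZMod p) ≠ 0 := fun h => by
    have := Int.le_of_dvd hk0 ((ZMod.intCast_zmod_eq_zero_iff_dvd k p).1 h)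
    omega
  have hcomp : ∀ a : ZMod p, a ≠ 0 →
      v (psiPoint V (a.val • P)) ^ p ≤
        v N.a ^ min (a * k : ZMod p).val (p - (a * k : ZMod p).val) := by
    intro a ha
    obtain ⟨m, hm⟩ := hclass a.val
    have hj : N.wPoint (a.val • P) ^ p = v N.a ^ ((a.val : ℤ) * k + p * m) := by
      rw [hm, mul_pow, ← pow_mul, mul_comm a.val, pow_mul, hk, zpow_add₀ ha0.ne', mul_comm _ k,
        zpow_mul, zpow_natCast, mul_comm (p : ℤ), zpow_mul (v N.a) m, zpow_natCast]
    have hbad : ¬ N.Good (a.val • P) := by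
      intro hg
      have hc : Nat.Coprime a.val p :=
        (hp.coprime_iff_not_dvd.2 fun hd => ha ((ZMod.val_eq_zero a).1
          (Nat.eq_zero_of_dvd_of_lt hd a.val_lt))).symm
      have hbez := Nat.gcd_eq_gcd_ab a.val p
      rw [hc.gcd_eq_one] at hbez
      refine hG (N.mem_E0.1 ?_)
      have e : P = (Nat.gcdA a.val p) • (a.val • P) + (Nat.gcdB a.val p) • (p • P) := by
        rw [← natCast_zsmul, ← natCast_zsmul, smul_smul, smul_smul, ← add_smul,
          mul_comm (Nat.gcdA _ _), mul_comm (Nat.gcdB _ _), ← hbez, Nat.cast_one, one_smul]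
      rw [e, hPp, smul_zero, add_zero]
      exact N.E0.zsmul_mem (N.mem_E0.2 hg) _
    obtain ⟨j0, jp⟩ := hrange _ hbad _ hj
    have hval : (((a * k : ZMod p).val : ℤ)) = (a.val : ℤ) * k + p * m := by
      have e : (((a.val : ℤ) * k + p * m : ℤ) : ZMod p) = a * k := by push_cast; simp
      rw [← e, ZMod.val_intCast, Int.emod_eq_of_lt j0.le jp]
    refine v_psiPoint_pow_le N (a * k : ZMod p).val_lt.le hbad ?_
    rw [hj, ← hval, zpow_natCast]
  rw [← pow_le_pow_iff_left₀ zero_le zero_le hp.ne_zero, psiProd, map_prod, ← Finset.prod_pow,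
    ← pow_mul]
  set S := (Finset.univ : Finset (ZMod p)).erase 0
  calc ∏ a ∈ S, v (psiPoint V (a.val • P) ^ 4) ^ p
      ≤ ∏ a ∈ S, (v N.a ^ min (a * k : ZMod p).val (p - (a * k : ZMod p).val)) ^ 4 := by
        refine Finset.prod_le_prod' fun a ha => ?_
        rw [map_pow, ← pow_mul, mul_comm 4 p, pow_mul]
        exact pow_le_pow_left₀ zero_le (hcomp a (Finset.ne_of_mem_erase ha)) 4
    _ = v N.a ^ (4 * ∑ a ∈ S, min (a * k : ZMod p).val (p - (a * k : ZMod p).val)) := by
        rw [Finset.prod_pow, Finset.prod_pow_eq_pow_sum, ← pow_mul, mul_comm]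
    _ ≤ v N.a ^ ((p - 1) * p) := by
        refine pow_le_pow_of_le_one zero_le ha1.le ?_
        have hsum : ∑ a ∈ S, min (a * k : ZMod p).val (p - (a * k : ZMod p).val) =
            ∑ r ∈ Finset.range p, min r (p - r) := by
          rw [Finset.sum_erase _ (by simp)]
          refine Finset.sum_bij' (fun a _ => (a * k : ZMod p).val)
            (fun r _ => ((r : ZMod p) * (k : ZMod p)⁻¹)) ?_ ?_ ?_ ?_ (fun _ _ => rfl)
          · intro a _; exact Finset.mem_range.2 (ZMod.val_lt _)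
          · simp
          · intro a _
            rw [ZMod.natCast_zmod_val, mul_assoc, mul_inv_cancel₀ hkne, mul_one]
          · intro r hr
            rw [mul_assoc, inv_mul_cancel₀ hkne, mul_one,
              ZMod.val_cast_of_lt (Finset.mem_range.1 hr)]
        obtain ⟨m, hm⟩ := hp.odd_of_ne_two hp2
        rw [hsum, hm, sum_min_range, Nat.add_sub_cancel]
        nlinarith

end Node

end Fermat.Agent.MazurStep.Moduli
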