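import Fermat.Agent.MazurStep.Moduli.Values
import Fermat.Agent.MazurStep.Moduli.Component
import Fermat.Agent.Multiplicative.Qbar

/-!
# The rational place of `X₀(p)` attached to a curve with a rational point of order `p`

`exists_moduli_place`: for a curve with a Galois-fixed point `Q` of odd prime order `p` and some
multiplicative prime there is a Galois-fixed place over the invariant `c₄³/Δ` of the curve at which
`Δ(τ)/Δ(pτ)` takes a value `c` that is integral at a multiplicative prime `ℓ ≠ p` iff `Q` is not on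
the identity component there.
-/

set_option autoImplicit false

noncomputable section

open CongruenceSubgroup ModularCurve AlgebraicCurve WeierstrassCurve
open UpperHalfPlane hiding I
open scoped MatrixGroups PeriodPair WeierstrassCurve.Affine

namespace Fermat.Agent.MazurStep.Moduli

open Fermat.Agent Fermat.Agent.Kummer Fermat.Agent.MFGenus

local notation "Qbar" => AlgebraicClosure ℚ
local notation "ΓQ" => (AlgebraicClosure ℚ ≃ₐ[ℚ] AlgebraicClosure ℚ)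
local notation "EQ" W => ((WeierstrassCurve.map W (Int.castRingHom ℚ))⁄(AlgebraicClosure ℚ))
local notation "EC" W => ((WeierstrassCurve.map W (Int.castRingHom ℚ))⁄ℂ)

variable {W : WeierstrassCurve ℤ}

theorem eC_c₄ : (EC W).c₄ = (W.c₄ : ℂ) := by simp [WeierstrassCurve.baseChange]
theorem eC_c₆ : (EC W).c₆ = (W.c₆ : ℂ) := by simp [WeierstrassCurve.baseChange]
theorem eC_Δ : (EC W).Δ = (W.Δ : ℂ) := by simp [WeierstrassCurve.baseChange]
theorem eC_b₂ : (EC W).b₂ = (W.b₂ : ℂ) := by simp [WeierstrassCurve.baseChange]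
theorem eC_a₁ : (EC W).a₁ = (W.a₁ : ℂ) := by simp [WeierstrassCurve.baseChange]
theorem eC_a₃ : (EC W).a₃ = (W.a₃ : ℂ) := by simp [WeierstrassCurve.baseChange]

/-- `ℚ ⊆ ℂ`. -/
abbrev ratC : Subfield ℂ := (Rat.castHom ℂ).fieldRange

/-- The complex data of `(W, Q)`. -/
structure Data (W : WeierstrassCurve ℤ) (p : ℕ) [NeZero p]
    (Q : (EQ W).Point) (τ : ℍ) (r₄ r₆ c : Qbar) : Prop where
  jFun_eq : LevelOne.jFun τ = qbarToC ((W.c₄ : Qbar) ^ 3 / (W.Δ : Qbar))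
  E₄_ne_zero : ModularForm.E₄ τ ≠ 0
  E₆_ne_zero : ModularForm.E₆ τ ≠ 0
  E₄_eq : ModularForm.E₄ (nTimes p τ) = qbarToC r₄ * ModularForm.E₄ τ
  E₆_eq : ModularForm.E₆ (nTimes p τ) = qbarToC r₆ * ModularForm.E₆ τ
  rat₄ : ∀ σ : ΓQ, σ r₄ = r₄
  rat₆ : ∀ σ : ΓQ, σ r₆ = r₆
  discriminant_eq : ModularForm.discriminant τ =
    qbarToC c * ModularForm.discriminant (nTimes p τ)
  c_eq : c = (p : Qbar) ^ 12 * psiProd (EQ W) p Q / (W.Δ : Qbar) ^ (p - 1)

theorem qbarToC_algebraMap (r : ℚ) : qbarToC (algebraMap ℚ Qbar r) = (r : ℂ) :=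
  map_algebraMap_rat qbarToC r

theorem exists_qbar_of_mem_ratC {z : ℂ} (hz : z ∈ ratC) :
    ∃ r : Qbar, (∀ σ : ΓQ, σ r = r) ∧ qbarToC r = z := by
  obtain ⟨r, rfl⟩ := RingHom.mem_fieldRange.1 hz
  exact ⟨algebraMap ℚ Qbar r, fun σ => σ.commutes r, qbarToC_algebraMap r⟩

theorem qbarToC_mem_ratC {x : Qbar} (hx : ∀ σ : ΓQ, σ x = x) : qbarToC x ∈ ratC := by
  obtain ⟨r, rfl⟩ := (InfiniteGalois.mem_range_algebraMap_iff_fixed x).2 hx
  exact ⟨r, (qbarToC_algebraMap r).symm⟩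

/-- A rational point of order `p` gives the data on the upper half plane. -/
theorem exists_data {p : ℕ} [NeZero p] (hp : p.Prime) (hp2 : p ≠ 2) (hΔ : W.Δ ≠ 0)
    (h4 : W.c₄ ≠ 0) (h6 : W.c₆ ≠ 0) (Q : (EQ W).Point) (hQfix : ∀ σ : ΓQ, σ • Q = Q)
    (hQord : addOrderOf Q = p) : ∃ τ r₄ r₆ c, Data W p Q τ r₄ r₆ c := by
  classical
  set ιA : Qbar →ₐ[ℚ] ℂ := IsAlgClosed.lift with hιA
  have hι : ∀ x, ιA x = qbarToC x := fun x => rfl
  let f : (EQ W).Point →+ (EC W).toAffine.Point :=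
    Affine.Point.map (W' := (W.map (Int.castRingHom ℚ)).toAffine) ιA
  set P := f Q
  have hpQ : p • Q = 0 := hQord ▸ addOrderOf_nsmul_eq_zero Q
  have hQ0 : Q ≠ 0 := fun h => hp.ne_one (by rw [← hQord, h, addOrderOf_zero])
  have hP0 : P ≠ 0 := fun h => hQ0 (Affine.Point.map_injective (f := ιA)
    (h.trans (map_zero f).symm))
  have hPp : p • P = 0 := by rw [← map_nsmul, hpQ, map_zero]
  have hΔC : (EC W).Δ ≠ 0 := by rw [eC_Δ]; exact_mod_cast hΔ
  obtain ⟨τ, c, hc, h₂, h₃, hj, hE4, hE6, htp⟩ := exists_unif hp (EC W) hΔC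
    (by rw [eC_c₄]; exact_mod_cast h4) (by rw [eC_c₆]; exact_mod_cast h6) P hP0 hPp
  have hp0 : (p : ℂ) ≠ 0 := by exact_mod_cast hp.ne_zero
  have hcp : c / (p : ℂ) ≠ 0 := div_ne_zero hc hp0
  set L := lat τ hc
  have E := ext_lat p τ hc hcp
  set S := (Finset.univ : Finset (ZMod p)).erase 0
  -- the multiples of the point
  have hmult : ∀ a ∈ S, ∃ (x y : Qbar) (h : (EQ W).toAffine.Nonsingular x y),
      a.val • Q = .some x y h ∧ (∀ σ : ΓQ, σ x = x) ∧
      ℘[L] (Ext.rep (c / p) a) = qbarToC x + (EC W).b₂ / 12 ∧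
      ℘'[L] (Ext.rep (c / p) a) = qbarToC (2 * y + (EQ W).a₁ * x + (EQ W).a₃) := by
    intro a ha
    have hne : a.val • Q ≠ 0 := fun h => by
      have hd := addOrderOf_dvd_iff_nsmul_eq_zero.2 h
      rw [hQord] at hd
      exact Finset.ne_of_mem_erase ha
        ((ZMod.val_eq_zero a).1 (Nat.eq_zero_of_dvd_of_lt hd a.val_lt))
    obtain ⟨x, y, h, hxy⟩ : ∃ x y h, a.val • Q = .some x y h := by
      rcases e : a.val • Q with _ | ⟨x, y, h⟩
      · exact absurd e hne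
      · exact ⟨x, y, h, rfl⟩
    refine ⟨x, y, h, hxy, fun σ => ?_, ?_⟩
    · have hσ : σ • (a.val • Q) = a.val • Q :=
        (map_nsmul (DistribSMul.toAddMonoidHom (EQ W).Point σ) a.val Q).trans
          (congrArg (a.val • ·) (hQfix σ))
      rw [hxy] at hσ
      exact (Affine.Point.some.inj hσ).1
    have hz : Ext.rep (c / p) a ∉ L.lattice := fun hm =>
      Finset.ne_of_mem_erase ha ((E.rep_mem_iff a).1 hm)
    have himg : toPoint L (EC W) hΔC h₂ h₃ (Ext.rep (c / p) a) = f (a.val • Q) := by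
      rw [map_nsmul, show f Q = P from rfl, ← htp, ← map_nsmul, nsmul_eq_mul]
      simp [Ext.rep]
      rfl
    rw [toPoint_apply_of_notMem L _ _ _ _ hz, hxy] at himg
    obtain ⟨ex, ey⟩ := Affine.Point.some.inj himg
    rw [hι] at ex ey
    refine ⟨?_, ?_⟩
    · rw [← ex, xCoord]; ring
    · have hpsi := psi_xCoord_yCoord L (EC W) (Ext.rep (c / p) a)
      rw [ex, ey] at hpsi
      rw [← hpsi, Multiplicative.coeff₁, Multiplicative.coeff₃, eC_a₁, eC_a₃, map_add, map_add,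
        map_mul, map_mul, map_intCast, map_intCast, map_ofNat]
  -- rationality of the invariants of the bigger lattice
  have hmem : ∀ a ∈ S, ℘[L] (Ext.rep (c / p) a) ∈ ratC := by
    intro a ha
    obtain ⟨x, y, h, -, hx, he, -⟩ := hmult a ha
    rw [he, eC_b₂]
    exact add_mem (qbarToC_mem_ratC hx) (div_mem (intCast_mem _ _) (natCast_mem ratC 12))
  set M := lat (nTimes p τ) hcp
  have hL2 : L.g₂ ∈ ratC := by
    rw [h₂, eC_c₄]; exact div_mem (intCast_mem _ _) (natCast_mem ratC 12)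
  have hL3 : L.g₃ ∈ ratC := by
    rw [h₃, eC_c₆]; exact div_mem (intCast_mem _ _) (natCast_mem ratC 216)
  have hM2 : M.g₂ ∈ ratC := by
    rw [E.g₂_eq]
    exact add_mem hL2 (mul_mem (natCast_mem ratC 60) (sum_mem fun a ha =>
      sub_mem (pow_mem (hmem a ha) 2) (div_mem hL2 (natCast_mem ratC 12))))
  have hM3 : M.g₃ ∈ ratC := by
    rw [E.g₃_eq]
    exact add_mem hL3 (mul_mem (natCast_mem ratC 140) (sum_mem fun a ha =>
      sub_mem (sub_mem (pow_mem (hmem a ha) 3) (mul_mem (mul_mem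
        (div_mem (natCast_mem ratC 3) (natCast_mem ratC 20)) hL2) (hmem a ha)))
        (div_mem hL3 (natCast_mem ratC 10))))
  have hr4 : ModularForm.E₄ (nTimes p τ) / ModularForm.E₄ τ ∈ ratC := by
    have e : ModularForm.E₄ (nTimes p τ) / ModularForm.E₄ τ =
        M.g₂ / ((p : ℂ) ^ 4 * L.g₂) := by
      simp only [M, L, g₂_lat]
      field_simp
    rw [e]
    exact div_mem hM2 (mul_mem (pow_mem (natCast_mem _ _) 4) hL2)
  have hr6 : ModularForm.E₆ (nTimes p τ) / ModularForm.E₆ τ ∈ ratC := by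
    have e : ModularForm.E₆ (nTimes p τ) / ModularForm.E₆ τ =
        M.g₃ / ((p : ℂ) ^ 6 * L.g₃) := by
      simp only [M, L, g₃_lat]
      field_simp
    rw [e]
    exact div_mem hM3 (mul_mem (pow_mem (natCast_mem _ _) 6) hL3)
  obtain ⟨r₄, hr₄, e₄⟩ := exists_qbar_of_mem_ratC hr4
  obtain ⟨r₆, hr₆, e₆⟩ := exists_qbar_of_mem_ratC hr6
  refine ⟨τ, r₄, r₆, _, ?_, hE4, hE6, ?_, ?_, hr₄, hr₆, ?_, rfl⟩
  · rw [hj, eC_c₄, eC_Δ, map_div₀, map_pow, map_intCast, map_intCast]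
  · rw [e₄, div_mul_cancel₀ _ hE4]
  · rw [e₆, div_mul_cancel₀ _ hE6]
  -- the discriminant
  have hprod : qbarToC (psiProd (EQ W) p Q) =
      ∏ a ∈ S, ℘'[L] (Ext.rep (c / p) a) ^ 4 := by
    rw [psiProd, map_prod]
    refine Finset.prod_congr rfl fun a ha => ?_
    obtain ⟨x, y, h, hxy, -, -, he⟩ := hmult a ha
    rw [map_pow, hxy, psiPoint_some, he]
  have hdL : discr L = (W.Δ : ℂ) := by
    rw [← eC_Δ, discr, h₂, h₃]
    linear_combination -(EC W).c_relation / 1728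
  have key := E.discr_mul_prod hp hp2
  rw [← hprod, hdL] at key
  have hdM : discr M = ((c / (p : ℂ)) ^ 12)⁻¹ * (2 * (Real.pi : ℂ)) ^ 12 *
      ModularForm.discriminant (nTimes p τ) := discr_lat _ hcp
  have hdL' := hdL
  rw [show discr L = _ from discr_lat τ hc] at hdL'
  have hΔ0 : (W.Δ : ℂ) ≠ 0 := by exact_mod_cast hΔ
  have hpow : (W.Δ : ℂ) ^ p = (W.Δ : ℂ) * (W.Δ : ℂ) ^ (p - 1) := by
    rw [← pow_succ', Nat.sub_add_cancel hp.one_le]
  rw [map_div₀, map_mul, map_pow, map_pow, map_natCast, map_intCast]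
  rw [hdM, hpow] at key
  have hpne : ((W.Δ : ℂ)) ^ (p - 1) ≠ 0 := pow_ne_zero _ hΔ0
  rw [div_mul_eq_mul_div, eq_div_iff hpne]
  generalize (W.Δ : ℂ) ^ (p - 1) = X at key ⊢
  rw [← hdL'] at key
  generalize qbarToC (psiProd (EQ W) p Q) = Ψ at key ⊢
  field_simp at key
  linear_combination -key

theorem c₆_ne_zero {q : ℕ} (hq : q.Prime) (hqΔ : (q : ℤ) ∣ W.Δ)
    (hqc₄ : ¬ (q : ℤ) ∣ W.c₄) : W.c₆ ≠ 0 := by
  intro h
  have hr := W.c_relation
  rw [h] at hr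
  exact hqc₄ ((Nat.prime_iff_prime_int.1 hq).dvd_of_dvd_pow (n := 3)
    (by rw [show W.c₄ ^ 3 = 1728 * W.Δ by linear_combination -hr]; exact hqΔ.mul_left _))

theorem eElt_sub_ne_zero {p : ℕ} [NeZero p] (hp : p.Prime) (c : Qbar) :
    eElt p - algebraMap Qbar (modularFunctionFieldBar p) c ≠ 0 := by
  intro h
  have h' : coeffEmb Qbar (modularUnitSeries p) = algebraMap Qbar (LaurentSeries Qbar) c :=
    (coe_eElt p).symm.trans (congrArg Subtype.val (sub_eq_zero.1 h))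
  have h'' := congrArg (fun s : LaurentSeries Qbar => s.coeff (1 - (p : ℤ))) h'
  simp only [coeffEmb_coeff, coeff_modularUnitSeries_self, map_one,
    algebraMap_laurentSeries_eq_single] at h''
  rw [HahnSeries.coeff_single_of_ne (by have := hp.two_le; omega)] at h''
  exact one_ne_zero h''

/-- The value `c` is integral at `ℓ` iff `Q` is not on the identity component there. -/
theorem mem_iff_not_inZeroComponentAt {p : ℕ} [NeZero p] (hp : p.Prime) (hp2 : p ≠ 2)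
    (Q : (EQ W).Point) (hQord : addOrderOf Q = p) {c : Qbar}
    (hc : c = (p : Qbar) ^ 12 * psiProd (EQ W) p Q / (W.Δ : Qbar) ^ (p - 1))
    {ℓ : ℕ} {A : ValuationSubring Qbar} (h : Multiplicative.MultAt W A ℓ) (hℓp : ℓ ≠ p) :
    c ∈ A ↔ ¬ W.InZeroComponentAt A Q := by
  have hvp : A.valuation (p : Qbar) = 1 :=
    Multiplicative.v_natCast_eq_one h.prime h.liesOver fun hd =>
      hℓp ((Nat.prime_dvd_prime_iff_eq h.prime hp).1 hd)
  have hQ0 : Q ≠ 0 := fun h0 => hp.ne_one (by rw [← hQord, h0, addOrderOf_zero])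
  obtain ⟨hgood, hbad⟩ :=
    v_psiProd h.node hp hp2 hvp hQ0 (hQord ▸ addOrderOf_nsmul_eq_zero Q)
  have ha : A.valuation h.node.a = A.valuation (W.Δ : Qbar) := by
    rw [h.node.v_a_eq, Multiplicative.coeffΔ]
  have hlt : A.valuation (W.Δ : Qbar) < 1 :=
    (Multiplicative.v_intCast_lt_one_iff h.prime h.liesOver).2 h.dvd_Δ
  have hpos : 0 < A.valuation (W.Δ : Qbar) ^ (p - 1) :=
    pow_pos (zero_lt_iff.2 ((map_ne_zero _).2 (Int.cast_ne_zero.2 h.Δ_ne_zero))) _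
  have hv : A.valuation c =
      A.valuation (psiProd (EQ W) p Q) / A.valuation (W.Δ : Qbar) ^ (p - 1) := by
    rw [hc, map_div₀, map_mul, map_pow, map_pow, hvp, one_pow, one_mul]
  rw [h.inZeroComponentAt_iff_mem_E0, Multiplicative.NodeData.mem_E0, ← A.valuation_le_one_iff, hv]
  by_cases hG : h.node.Good Q
  · rw [hgood hG, iff_false_intro (not_not.2 hG), iff_false, not_le, one_lt_div₀ hpos]
    exact pow_lt_one₀ zero_le hlt (by have := hp.two_le; omega)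
  · refine iff_of_true ?_ hG
    rw [div_le_one₀ hpos, ← ha]
    exact hbad hG

/-- **The place attached to `(W, Q)`.** -/
theorem exists_moduli_place {p : ℕ} [NeZero p] (hp : p.Prime) (hp2 : p ≠ 2)
    (W : WeierstrassCurve ℤ) (hΔ : W.Δ ≠ 0) {q : ℕ} (hq : q.Prime) (hqΔ : (q : ℤ) ∣ W.Δ)
    (hqc₄ : ¬ (q : ℤ) ∣ W.c₄) (Q : (EQ W).Point) (hQfix : ∀ σ : ΓQ, σ • Q = Q)
    (hQord : addOrderOf Q = p) :
    ∃ x : Place Qbar (modularFunctionFieldBar p),
      (∀ σ : ΓQ, arithmeticGalois (modularFunctionFieldFull p) σ • x = x) ∧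
      0 < x.ord (jElt Qbar p - algebraMap Qbar _ ((W.c₄ : Qbar) ^ 3 / (W.Δ : Qbar))) ∧
      ∃ c : Qbar, c ≠ 0 ∧ 0 < x.ord (eElt p - algebraMap Qbar _ c) ∧
        ∀ (ℓ : ℕ), ℓ.Prime → ℓ ≠ p → (ℓ : ℤ) ∣ W.Δ → ¬ (ℓ : ℤ) ∣ W.c₄ →
          ∀ A : ValuationSubring Qbar, A.LiesOverPrime ℓ →
            (c ∈ A ↔ ¬ W.InZeroComponentAt A Q) := by
  obtain ⟨τ, r₄, r₆, c, D⟩ := exists_data hp hp2 hΔ (fun h => hqc₄ (h ▸ dvd_zero _))
    (c₆_ne_zero hq hqΔ hqc₄) Q hQfix hQord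
  obtain ⟨e, he⟩ := exists_places (N := p) qbarToC D.jFun_eq.symm D.E₄_ne_zero D.E₆_ne_zero
  obtain ⟨z₄, hfix₄, hz₄⟩ := exists_liftRatio (N := p) qbarToC
    (MFCore.isLevelOne_modularForm ModularForm.E₄)
    (fun h => D.E₄_ne_zero (congrFun h τ)) LevelOne.E₄_mem_intSeries
  obtain ⟨z₆, hfix₆, hz₆⟩ := exists_liftRatio (N := p) qbarToC
    (MFCore.isLevelOne_modularForm ModularForm.E₆)
    (fun h => D.E₆_ne_zero (congrFun h τ)) LevelOne.E₆_mem_intSeries
  obtain ⟨hmem, hze⟩ := exists_embed_modularUnit qbarToC p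
  set o := (Quotient.mk'' (QuotientGroup.mk (1⁻¹ : SL(2, ℤ)) : SL(2, ℤ) ⧸ Gamma0 p) :
    PointOrbit p (1 : SL(2, ℤ)))
  set x := (e o).1
  have hE4 : ∀ γ : SL(2, ℤ), ModularForm.E₄ (γ • τ) ≠ 0 := fun γ h => D.E₄_ne_zero (by
    have h2 := LevelOne.jFun_eq_zero_iff.2 h
    rw [LevelOne.jFun_smul] at h2
    exact LevelOne.jFun_eq_zero_iff.1 h2)
  have hE6 : ∀ γ : SL(2, ℤ), ModularForm.E₆ (γ • τ) ≠ 0 := fun γ h => D.E₆_ne_zero (by
    have h2 := LevelOne.jFun_eq_1728_iff.2 h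
    rw [LevelOne.jFun_smul] at h2
    exact LevelOne.jFun_eq_1728_iff.1 h2)
  have hx4 : HasVal x z₄ r₄ := by
    rw [hasVal_iff qbarToC 1 (he 1) _ _ hz₄ (hE4 1), one_smul]
    exact D.E₄_eq
  have hx6 : HasVal x z₆ r₆ := by
    rw [hasVal_iff qbarToC 1 (he 1) _ _ hz₆ (hE6 1), one_smul]
    exact D.E₆_eq
  have hxe : HasVal x (eElt p) c := by
    rw [hasVal_iff qbarToC 1 (he 1) _ _ (show embed qbarToC p (eElt p) *
      MeroH.ofHol (MFCore.deltaN p) MFCore.deltaN_isForm.holo = _ from hze)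
      (ModularForm.discriminant_ne_zero _), one_smul]
    exact D.discriminant_eq
  refine ⟨x, fun σ => ?_, (e o).2, c, ?_, hxe.resolve_left (eElt_sub_ne_zero hp c), ?_⟩
  · set g := arithmeticGalois (modularFunctionFieldFull p) σ
    have hbase : ∀ a : Qbar, σ a = a → SemilinearAut.baseAut g a = a := fun a ha => ha
    have hj : g • jElt Qbar p = jElt Qbar p :=
      Subtype.ext ((coe_arithmeticGalois_smul _ σ _).trans (coeffMap_coeffEmb σ _))
    have hx0 : σ ((W.c₄ : Qbar) ^ 3 / (W.Δ : Qbar)) = (W.c₄ : Qbar) ^ 3 / (W.Δ : Qbar) := by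
      rw [map_div₀, map_pow, map_intCast, map_intCast]
    have hpos : 0 < (g • x).ord (jElt Qbar p - algebraMap Qbar _
        ((W.c₄ : Qbar) ^ 3 / (W.Δ : Qbar))) := by
      have h0 := (e o).2
      rcases hasVal_smul g hj (hbase _ hx0) (Or.inr h0) with h | h
      · exact absurd (h0.trans_eq ((congrArg x.ord h).trans x.ord_zero)) (lt_irrefl _)
      · exact h
    obtain ⟨o', ho'⟩ := e.surjective ⟨g • x, hpos⟩
    obtain ⟨q', rfl⟩ := Quotient.mk''_surjective o'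
    obtain ⟨δ, rfl⟩ := QuotientGroup.mk_surjective q'
    have hval : ∀ f, f ≠ 0 → ordPoint τ (MeroH.slComp δ⁻¹ (embed qbarToC p f)) = (g • x).ord f := by
      intro f hf
      rw [he δ⁻¹ f hf, inv_inv, ho']
    have b4 := (hasVal_iff qbarToC δ⁻¹ hval _ _ hz₄ (hE4 _) r₄).1
      (hasVal_smul g (hfix₄ σ) (hbase _ (D.rat₄ σ)) hx4)
    have b6 := (hasVal_iff qbarToC δ⁻¹ hval _ _ hz₆ (hE6 _) r₆).1
      (hasVal_smul g (hfix₆ σ) (hbase _ (D.rat₆ σ)) hx6)
    have hδ := mem_Gamma0_of_ratios δ⁻¹ D.E₄_eq D.E₆_eq b4 b6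
    have hq : (QuotientGroup.mk δ : SL(2, ℤ) ⧸ Gamma0 p) = QuotientGroup.mk (1⁻¹ : SL(2, ℤ)) := by
      rw [QuotientGroup.eq, inv_one, mul_one]
      exact hδ
    have e2 := congrArg (fun q : SL(2, ℤ) ⧸ Gamma0 p =>
      (e (Quotient.mk'' q : PointOrbit p (1 : SL(2, ℤ)))).1) hq
    simp only [ho'] at e2
    exact e2
  · rintro rfl
    have h := D.discriminant_eq
    rw [map_zero, zero_mul] at h
    exact ModularForm.discriminant_ne_zero τ h
  · exact fun ℓ hℓ hℓp hℓΔ hℓc₄ A hA =>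
      mem_iff_not_inZeroComponentAt hp hp2 Q hQord D.c_eq ⟨hℓ, hA, hℓΔ, hℓc₄, hΔ⟩ hℓp

end Fermat.Agent.MazurStep.Moduli
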