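import Fermat.Agent.MazurStep.Moduli.Sublattice
import Fermat.Agent.LevelOne.JBijective
import Fermat.Agent.MFCore.Lift

/-!
# The point of `ℍ` attached to a curve with a point of order `p`

`(ℂ / c(ℤτ + ℤ), c/p) ≅ (V, P)`; the invariants of `c(ℤτ + ℤ)` and of `(c/p)(ℤ pτ + ℤ)`.
-/

set_option autoImplicit false

noncomputable section

open Complex
open UpperHalfPlane hiding I
open ModularForm (discriminant_eq_E₄_cube_sub_E₆_sq)
open scoped MatrixGroups PeriodPair Real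

namespace Fermat.Agent.MazurStep.Moduli

open Fermat.Agent Fermat.Agent.LevelOne

theorem g_congr {L M : PeriodPair} (h : L.lattice = M.lattice) :
    L.g₂ = M.g₂ ∧ L.g₃ = M.g₃ := by
  have hG : ∀ k, L.G k = M.G k := fun k =>
    congrArg (fun S : Submodule ℤ ℂ => ∑' l : S, ((l : ℂ) ^ k)⁻¹) h
  exact ⟨by rw [PeriodPair.g₂, PeriodPair.g₂, hG], by rw [PeriodPair.g₃, PeriodPair.g₃, hG]⟩

theorem weierstrassP_congr {L M : PeriodPair} (h : L.lattice = M.lattice) (z : ℂ) :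
    ℘[L] z = ℘[M] z :=
  congrArg (fun S : Submodule ℤ ℂ => ∑' l : S, (1 / (z - l) ^ 2 - 1 / (l : ℂ) ^ 2)) h

theorem derivWeierstrassP_congr {L M : PeriodPair} (h : L.lattice = M.lattice) (z : ℂ) :
    ℘'[L] z = ℘'[M] z :=
  congrArg (fun S : Submodule ℤ ℂ => - ∑' l : S, 2 / (z - (l : ℂ)) ^ 3) h

/-- The lattice `c (ℤτ + ℤ)`. -/
def lat (τ : ℍ) {c : ℂ} (hc : c ≠ 0) : PeriodPair := scalePair (tauPair τ) hc

theorem mem_lat {τ : ℍ} {c : ℂ} (hc : c ≠ 0) {x : ℂ} :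
    x ∈ (lat τ hc).lattice ↔ ∃ a b : ℤ, c * (a * τ + b) = x := by
  rw [PeriodPair.mem_lattice]
  refine exists₂_congr fun a b => ?_
  rw [show (a : ℂ) * (lat τ hc).ω₁ + (b : ℂ) * (lat τ hc).ω₂ = c * (a * τ + b) by
    simp [lat, scalePair, tauPair]; ring]

theorem zeta_six : riemannZeta 6 = (π : ℂ) ^ 6 / 945 := by
  have h := riemannZeta_two_mul_nat (k := 3) three_ne_zero
  norm_num [show bernoulli 6 = 1 / 42 by decide +kernel, Nat.factorial] at h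
  rw [h]
  ring

theorem g₂_lat (τ : ℍ) {c : ℂ} (hc : c ≠ 0) :
    (lat τ hc).g₂ = (c ^ 4)⁻¹ * (4 * (π : ℂ) ^ 4 / 3) * ModularForm.E₄ τ := by
  rw [PeriodPair.g₂, lat, G_scalePair, G_tauPair (k := 4) (by norm_num)]
  rw [show ((4 : ℕ) : ℂ) = 4 by norm_num, riemannZeta_four]
  rw [show (ModularForm.E _ : ModularForm 𝒮ℒ 4) τ = ModularForm.E₄ τ from rfl]
  ring

theorem g₃_lat (τ : ℍ) {c : ℂ} (hc : c ≠ 0) :
    (lat τ hc).g₃ = (c ^ 6)⁻¹ * (8 * (π : ℂ) ^ 6 / 27) * ModularForm.E₆ τ := by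
  rw [PeriodPair.g₃, lat, G_scalePair, G_tauPair (k := 6) (by norm_num)]
  rw [show ((6 : ℕ) : ℂ) = 6 by norm_num, zeta_six]
  rw [show (ModularForm.E _ : ModularForm 𝒮ℒ 6) τ = ModularForm.E₆ τ from rfl]
  ring

theorem discr_lat (τ : ℍ) {c : ℂ} (hc : c ≠ 0) :
    discr (lat τ hc) = (c ^ 12)⁻¹ * (2 * (π : ℂ)) ^ 12 * ModularForm.discriminant τ := by
  rw [discr, g₂_lat, g₃_lat, discriminant_eq_E₄_cube_sub_E₆_sq]
  ring

/-- The point `Nτ`. -/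
def nTimes (N : ℕ) (τ : ℍ) : ℍ := ModularForm.heckeDiagMatrix N • τ

theorem coe_nTimes (N : ℕ) [NeZero N] (τ : ℍ) : (nTimes N τ : ℂ) = N * τ := by
  simp [nTimes, ModularForm.coe_heckeDiagMatrix_smul (NeZero.ne N)]

theorem ext_lat (p : ℕ) [NeZero p] (τ : ℍ) {c : ℂ} (hc : c ≠ 0) (hcp : c / (p : ℂ) ≠ 0) :
    Ext (lat τ hc) (lat (nTimes p τ) hcp) (c / p) p := by
  have hp0 : (p : ℂ) ≠ 0 := by exact_mod_cast NeZero.ne p
  constructor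
  · intro x
    rw [mem_lat, coe_nTimes]
    constructor
    · rintro ⟨a, b, rfl⟩
      refine ⟨b, (mem_lat hc).2 ⟨a, 0, ?_⟩⟩
      push_cast
      field_simp
      ring
    · rintro ⟨k, hk⟩
      obtain ⟨a, b, hab⟩ := (mem_lat hc).1 hk
      refine ⟨a, k + p * b, ?_⟩
      rw [sub_eq_iff_eq_add.1 hab.symm]
      push_cast
      field_simp
      ring
  · intro k
    rw [mem_lat]
    constructor
    · rintro ⟨a, b, h⟩
      field_simp at h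
      obtain ⟨-, h2⟩ := int_coords_eq τ (a := p * a) (b := p * b) (c := 0) (d := k)
        (by push_cast; linear_combination h)
      exact ⟨b, h2.symm⟩
    · rintro ⟨b, rfl⟩
      refine ⟨0, b, ?_⟩
      push_cast
      field_simp
      ring

/-- A bottom row of a matrix in `SL(2, ℤ)` with given reduction modulo a prime. -/
theorem exists_SL_bottom_row {p : ℕ} (hp : p.Prime) {a b : ℤ}
    (h : ¬ ((p : ℤ) ∣ a ∧ (p : ℤ) ∣ b)) :
    ∃ γ : SL(2, ℤ), (p : ℤ) ∣ γ 1 0 - a ∧ (p : ℤ) ∣ γ 1 1 - b := by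
  have hpi := Nat.prime_iff_prime_int.1 hp
  suffices H : ∃ r s : ℤ, IsCoprime r s ∧ (p : ℤ) ∣ r - a ∧ (p : ℤ) ∣ s - b by
    obtain ⟨r, s, ⟨u, v, huv⟩, hr, hs⟩ := H
    exact ⟨⟨!![v, -u; r, s], by rw [Matrix.det_fin_two_of]; linear_combination huv⟩, hr, hs⟩
  by_cases ha : (p : ℤ) ∣ a
  · refine ⟨p, b, (hpi.coprime_iff_not_dvd.2 fun hb => h ⟨ha, hb⟩), dvd_sub dvd_rfl ha, by simp⟩
  · obtain ⟨u, v, huv⟩ := hpi.coprime_iff_not_dvd.2 ha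
    refine ⟨a, b + p * (u * (1 - b)), ⟨v * (1 - b), 1, ?_⟩, by simp, by simp⟩
    linear_combination (1 - b) * huv

open scoped WeierstrassCurve.Affine in
/-- **Uniformisation of a curve with a point of order `p`.** -/
theorem exists_unif {p : ℕ} [NeZero p] (hp : p.Prime) (V : WeierstrassCurve ℂ) (hΔ : V.Δ ≠ 0)
    (h4 : V.c₄ ≠ 0) (h6 : V.c₆ ≠ 0) (P : V.toAffine.Point) (hP0 : P ≠ 0) (hPp : p • P = 0) :
    ∃ (τ : ℍ) (c : ℂ) (hc : c ≠ 0) (h₂ : (lat τ hc).g₂ = V.c₄ / 12)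
      (h₃ : (lat τ hc).g₃ = V.c₆ / 216),
      jFun τ = V.c₄ ^ 3 / V.Δ ∧ ModularForm.E₄ τ ≠ 0 ∧ ModularForm.E₆ τ ≠ 0 ∧
        toPoint (lat τ hc) V hΔ h₂ h₃ (c / p) = P := by
  have hrel := V.c_relation
  obtain ⟨τ₀, hτ₀⟩ := jFun_surjective (V.c₄ ^ 3 / V.Δ)
  have hj0 : jFun τ₀ ≠ 0 := by rw [hτ₀]; exact div_ne_zero (pow_ne_zero 3 h4) hΔ
  have hj1 : jFun τ₀ ≠ 1728 := by
    rw [hτ₀, Ne, div_eq_iff hΔ]
    exact fun h => pow_ne_zero 2 h6 (by linear_combination hrel + h)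
  have hE4 : ModularForm.E₄ τ₀ ≠ 0 := fun h => hj0 (jFun_eq_zero_iff.2 h)
  have hE6 : ModularForm.E₆ τ₀ ≠ 0 := fun h => hj1 (jFun_eq_1728_iff.2 h)
  -- scaling
  set a := (lat τ₀ one_ne_zero).g₂ with ha
  set b := (lat τ₀ one_ne_zero).g₃ with hb
  have hπ : (π : ℂ) ≠ 0 := by exact_mod_cast Real.pi_ne_zero
  have ha0 : a ≠ 0 := by rw [ha, g₂_lat]; simp [hE4, hπ]
  have hb0 : b ≠ 0 := by rw [hb, g₃_lat]; simp [hE6, hπ]
  set A := V.c₄ / 12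
  set B := V.c₆ / 216
  have hA0 : A ≠ 0 := by simp [A, h4]
  have hB0 : B ≠ 0 := by simp [B, h6]
  have hab : a ^ 3 * B ^ 2 = A ^ 3 * b ^ 2 := by
    have hj := jFun_mul_discriminant τ₀
    rw [hτ₀] at hj
    have hjj : V.c₄ ^ 3 * ModularForm.discriminant τ₀ = V.Δ * ModularForm.E₄ τ₀ ^ 3 := by
      rw [← hj]; field_simp
    have hd := discriminant_eq_E₄_cube_sub_E₆_sq τ₀
    rw [hd] at hjj
    simp only [ha, hb, g₂_lat, g₃_lat, A, B]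
    linear_combination (64 * (π : ℂ) ^ 12 / 1259712) * (1728 * hjj + ModularForm.E₄ τ₀ ^ 3 * hrel)
  obtain ⟨c₀, hc₀⟩ := IsAlgClosed.exists_pow_nat_eq (b / B * (A / a)) (n := 2) two_pos
  have hc₀0 : c₀ ≠ 0 := by
    rintro rfl
    simp [ha0, hb0, hA0, hB0] at hc₀
  have g2 : (lat τ₀ hc₀0).g₂ = A := by
    have e : (lat τ₀ hc₀0).g₂ = (c₀ ^ 4)⁻¹ * a := by
      rw [ha, g₂_lat, g₂_lat]; ring
    rw [e, show c₀ ^ 4 = (c₀ ^ 2) ^ 2 by ring, hc₀]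
    field_simp
    linear_combination hab
  have g3 : (lat τ₀ hc₀0).g₃ = B := by
    have e : (lat τ₀ hc₀0).g₃ = (c₀ ^ 6)⁻¹ * b := by
      rw [hb, g₃_lat, g₃_lat]; ring
    rw [e, show c₀ ^ 6 = (c₀ ^ 2) ^ 3 by ring, hc₀]
    field_simp
    linear_combination hab
  obtain ⟨z, hz⟩ := toPoint_surjective (lat τ₀ hc₀0) V hΔ g2 g3 P
  have hzL : z ∉ (lat τ₀ hc₀0).lattice := fun h =>
    hP0 (hz.symm.trans ((toPoint_eq_zero_iff _ _ _ _ _ z).2 h))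
  have hpz : (p : ℂ) * z ∈ (lat τ₀ hc₀0).lattice := by
    rw [← toPoint_eq_zero_iff _ V hΔ g2 g3, ← nsmul_eq_mul, map_nsmul, hz, hPp]
  obtain ⟨α, β, hαβ⟩ := (mem_lat hc₀0).1 hpz
  have hp0 : (p : ℂ) ≠ 0 := by exact_mod_cast NeZero.ne p
  obtain ⟨γ, hγ0, hγ1⟩ := exists_SL_bottom_row hp (a := α) (b := β) (by
    rintro ⟨⟨m, rfl⟩, ⟨n, rfl⟩⟩
    refine hzL ((mem_lat hc₀0).2 ⟨m, n, mul_left_cancel₀ hp0 ?_⟩)
    rw [← hαβ]
    push_cast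
    ring)
  set μ : ℂ := (γ 1 0 : ℂ) * τ₀ + γ 1 1 with hμ
  have hμ0 : μ ≠ 0 := by
    have := UpperHalfPlane.denom_ne_zero (γ : GL (Fin 2) ℝ) τ₀
    rwa [ModularGroup.denom_apply] at this
  have hτ : ((γ • τ₀ : ℍ) : ℂ) = ((γ 0 0 : ℂ) * τ₀ + γ 0 1) / μ := by
    rw [hμ, UpperHalfPlane.coe_specialLinearGroup_apply]
    simp
  have hc : c₀ * μ ≠ 0 := mul_ne_zero hc₀0 hμ0
  have hdet : (γ 0 0 : ℂ) * γ 1 1 - γ 0 1 * γ 1 0 = 1 := by
    have := γ.2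
    rw [Matrix.det_fin_two] at this
    exact_mod_cast this
  have hlat : (lat (γ • τ₀) hc).lattice = (lat τ₀ hc₀0).lattice := by
    ext x
    rw [mem_lat hc, mem_lat hc₀0, hτ]
    constructor
    · rintro ⟨m, n, rfl⟩
      refine ⟨m * γ 0 0 + n * γ 1 0, m * γ 0 1 + n * γ 1 1, ?_⟩
      push_cast
      field_simp
      simp only [hμ]
      ring
    · rintro ⟨m, n, rfl⟩
      refine ⟨m * γ 1 1 - n * γ 1 0, -m * γ 0 1 + n * γ 0 0, ?_⟩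
      push_cast
      field_simp
      simp only [hμ]
      linear_combination ((m : ℂ) * τ₀ + n) * hdet
  obtain ⟨h₂', h₃'⟩ := g_congr hlat
  refine ⟨γ • τ₀, c₀ * μ, hc, h₂'.trans g2, h₃'.trans g3, ?_, ?_, ?_, ?_⟩
  · rw [jFun_smul, hτ₀]
  · exact fun h => hj0 (by rw [← jFun_smul γ τ₀]; exact jFun_eq_zero_iff.2 h)
  · exact fun h => hj1 (by rw [← jFun_smul γ τ₀]; exact jFun_eq_1728_iff.2 h)
  · have hmem : c₀ * μ / p - z ∈ (lat τ₀ hc₀0).lattice := by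
      obtain ⟨r, hr⟩ := hγ0
      obtain ⟨s, hs⟩ := hγ1
      refine (mem_lat hc₀0).2 ⟨r, s, ?_⟩
      have hr' : ((γ 1 0 : ℤ) : ℂ) - α = p * r := by exact_mod_cast hr
      have hs' : ((γ 1 1 : ℤ) : ℂ) - β = p * s := by exact_mod_cast hs
      rw [hμ]
      field_simp
      linear_combination -(c₀ * (τ₀ : ℂ)) * hr' - c₀ * hs' - hαβ
    have hcpL : c₀ * μ / p ∉ (lat τ₀ hc₀0).lattice := fun h => hzL (by
      simpa using sub_mem h hmem)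
    rw [← hz, show z = c₀ * μ / p - (c₀ * μ / p - z) by ring, map_sub,
      (toPoint_eq_zero_iff _ _ _ _ _ _).2 hmem, sub_zero,
      toPoint_apply_of_notMem _ _ _ _ _ hcpL,
      toPoint_apply_of_notMem _ _ _ _ _ (hlat ▸ hcpL), WeierstrassCurve.Affine.Point.some.injEq]
    constructor <;>
      simp only [xCoord, yCoord, weierstrassP_congr hlat, derivWeierstrassP_congr hlat]

end Fermat.Agent.MazurStep.Moduli
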