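import Fermat.Agent.Gal.Places
import Fermat.Agent.Kummer.Descent
import Fermat.Agent.MFGenus.HolHom
import Fermat.Prelude.Def_ModularCurve_ModularUnit

/-!
# Quotients of modular forms with rational coefficients as elements of the modular function field

`exists_embed_eq_div` puts such a quotient in the function field; in particular `eElt p` is the
element `Δ(τ)/Δ(pτ)` of the function field of `X₀(p)` over `ℚ̄`.
-/

set_option autoImplicit false

noncomputable section

open CongruenceSubgroup ModularCurve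
open UpperHalfPlane hiding I
open scoped MatrixGroups Manifold ModularForm

namespace Fermat.Agent.MazurStep.Moduli

open Fermat.Agent Fermat.Agent.Kummer Fermat.Agent.Kummer.MeroH

variable {N : ℕ} [NeZero N] {k : ℤ}

theorem holMul {f g : ℍ → ℂ} (hf : MDiff f) (hg : MDiff g) :
    ofHol f hf * ofHol g hg = ofHol (f * g) (hf.mul hg) := rfl

theorem ofHol_ne_zero {f : ℍ → ℂ} (hf : MDiff f) (h : f ≠ 0) : ofHol f hf ≠ 0 := fun h0 =>
  h (congrArg Subtype.val (MFGenus.holHom_injective (a₁ := ⟨f, hf⟩) (a₂ := 0)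
    (h0.trans (map_zero MFGenus.holHom).symm)))

/-- The automorphy factor. -/
abbrev multiplier (k : ℤ) (γ : SL(2, ℤ)) : ℍ → ℂ := (1 : ℍ → ℂ) ∣[k] γ

theorem ofHol_slash {f : ℍ → ℂ} (hf : MDiff f) (k : ℤ) (γ : SL(2, ℤ)) :
    ofHol (f ∣[k] γ) (MFCore.mdiff_slash_SL hf γ) = slComp γ (ofHol f hf) *
      ofHol (multiplier k γ) (MFCore.mdiff_slash_SL mdifferentiable_const γ) := by
  rw [MFGenus.slComp_ofHol_slash, holMul]
  refine ofHol_congr _ _ ?_
  funext τ
  simp [multiplier, ModularForm.SL_slash_apply]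

theorem isExp_slash {f : ℍ → ℂ} (hf : MFCore.IsForm N k f) (γ : SL(2, ℤ)) :
    ∃ s, IsExp (N : ℝ) (ofHol (f ∣[k] γ) (MFCore.mdiff_slash_SL hf.holo γ)) s := by
  refine ⟨_, isExp_of_periodic (by exact_mod_cast NeZero.pos N) _ ?_ (hf.bdd γ)⟩
  refine LevelOne.periodic_comp_ofComplex_of_vadd fun τ => ?_
  have hT := ModularGroup.coe_T_zpow (N : ℤ)
  have hmem : γ * ModularGroup.T ^ (N : ℤ) * γ⁻¹ ∈ Gamma0 N := by
    have h1 : ModularGroup.T ^ (N : ℤ) ∈ Gamma N := by
      rw [Gamma_mem, hT]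
      simp
    have h2 := (Gamma_normal N).conj_mem _ h1 γ
    rw [Gamma_mem] at h2
    exact Gamma0_mem.2 h2.2.2.1
  have hinv : (f ∣[k] γ) ∣[k] (ModularGroup.T ^ (N : ℤ)) = f ∣[k] γ := by
    rw [← SlashAction.slash_mul,
      show γ * ModularGroup.T ^ (N : ℤ) = γ * ModularGroup.T ^ (N : ℤ) * γ⁻¹ * γ by group,
      SlashAction.slash_mul, hf.slash _ hmem]
  conv_rhs => rw [← hinv, ModularForm.SL_slash_apply]
  rw [show ((N : ℝ) +ᵥ τ) = ModularGroup.T ^ (N : ℤ) • τ by
    rw [modular_T_zpow_smul]; simp]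
  rw [ModularGroup.denom_apply, hT]
  simp

theorem map_algebraMap_rat {L : Type*} [Field L] [Algebra ℚ L] (ι : L →+* ℂ) (r : ℚ) :
    ι (algebraMap ℚ L r) = Rat.castHom ℂ r :=
  RingHom.congr_fun (RingHom.ext_rat (ι.comp (algebraMap ℚ L)) (Rat.castHom ℂ)) r

theorem exists_embed_eq_div {L : Type*} [Field L] [Algebra ℚ L] (ι : L →+* ℂ) {f g : ℍ → ℂ}
    (hf : MFCore.IsForm N k f) (hg : MFCore.IsForm N k g) {pf pg : PowerSeries ℚ}
    (hqf : MFCore.qExp f = pf.map (Rat.castHom ℂ)) (hqg : MFCore.qExp g = pg.map (Rat.castHom ℂ))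
    (hg0 : g ≠ 0) :
    ∃ z : laurentBaseChange L (modularFunctionFieldFull N),
      (z : LaurentSeries L) =
        coeffEmb L (HahnSeries.ofPowerSeries ℤ ℚ pf / HahnSeries.ofPowerSeries ℤ ℚ pg) ∧
      embed ι N z * ofHol g hg.holo = ofHol f hf.holo := by
  have hG := ofHol_ne_zero hg.holo hg0
  set x := ofHol f hf.holo / ofHol g hg.holo with hx
  have hval : ∀ γ : SL(2, ℤ), slComp γ x = ofHol (f ∣[k] γ) (MFCore.mdiff_slash_SL hf.holo γ) /
      ofHol (g ∣[k] γ) (MFCore.mdiff_slash_SL hg.holo γ) := by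
    intro γ
    rw [ofHol_slash hf.holo k γ, ofHol_slash hg.holo k γ, mul_div_mul_right, hx, map_div₀]
    refine ofHol_ne_zero _ fun h => ?_
    have h2 := congrArg (fun F : ℍ → ℂ => (F ∣[k] γ⁻¹) UpperHalfPlane.I) h
    simp [multiplier, ← SlashAction.slash_mul, SlashAction.zero_slash] at h2
  have hinv : ∀ γ ∈ Gamma0 N, slComp γ x = x := fun γ hγ => by
    rw [hval, hx]
    congr 1
    · exact ofHol_congr _ _ (hf.slash γ hγ)
    · exact ofHol_congr _ _ (hg.slash γ hγ)
  have hcusp : MeroAtCusps N x := fun γ => by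
    obtain ⟨s, hs⟩ := isExp_slash hf γ
    obtain ⟨t, ht⟩ := isExp_slash hg γ
    exact ⟨_, hval γ ▸ hs.div (by exact_mod_cast NeZero.pos N) ht⟩
  have hser : ∀ p : PowerSeries ℚ, HahnSeries.ofPowerSeries ℤ ℂ (p.map (Rat.castHom ℂ)) =
      coeffMap (Rat.castHom ℂ) (HahnSeries.ofPowerSeries ℤ ℚ p) := by
    intro p
    ext n
    rw [coeffMap_coeff]
    rcases lt_or_ge n 0 with hn | hn
    · rw [ofPowerSeries_coeff_of_neg _ hn, ofPowerSeries_coeff_of_neg _ hn, map_zero]
    · obtain ⟨m, rfl⟩ := Int.eq_ofNat_of_zero_le hn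
      simp [HahnSeries.ofPowerSeries_apply_coeff]
  set q : LaurentSeries ℚ :=
    HahnSeries.ofPowerSeries ℤ ℚ pf / HahnSeries.ofPowerSeries ℤ ℚ pg
  have hexp : IsExp 1 x (coeffMap (Rat.castHom ℂ) q) := by
    rw [map_div₀, ← hser, ← hser, ← hqf, ← hqg]
    exact (isExp_of_periodic one_pos _ hf.isQ.periodic hf.isQ.bdd).div one_pos
      (isExp_of_periodic one_pos _ hg.isQ.periodic hg.isQ.bdd)
  obtain ⟨z, hz⟩ := exists_embed_eq_of_coeff ι hinv hcusp hexp fun n =>
    ⟨algebraMap ℚ L (q.coeff n), by rw [coeffMap_coeff]; exact map_algebraMap_rat ι (q.coeff n)⟩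
  refine ⟨z, ?_, by rw [hz, div_mul_cancel₀ _ hG]⟩
  have h := ((hz ▸ isExp_embed ι z).unique one_pos hexp).2 rfl
  ext n
  have hn := congrArg (fun s : LaurentSeries ℂ => s.coeff n) h
  simp only [coeffMap_coeff] at hn
  refine ι.injective ?_
  rw [hn, coeffEmb_coeff]
  exact (map_algebraMap_rat ι (q.coeff n)).symm

/-- The series of `f(Nτ)`. -/
def stretch (N : ℕ) (P : PowerSeries ℚ) : PowerSeries ℚ :=
  PowerSeries.mk fun n => if N ∣ n then P.coeff (n / N) else 0

theorem qExp_lift_eq {f : ℍ → ℂ} (hf : MFCore.IsLevelOne k f) {P : PowerSeries ℚ}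
    (hP : MFCore.qExp f = P.map (Rat.castHom ℂ)) :
    MFCore.qExp (MFCore.lift N f) = (stretch N P).map (Rat.castHom ℂ) := by
  ext n
  rw [MFCore.qExp_lift hf, PowerSeries.coeff_map, stretch, PowerSeries.coeff_mk, hP]
  split_ifs <;> simp

theorem qExpand_ofPowerSeries (P : PowerSeries ℚ) :
    qExpand ℚ N (HahnSeries.ofPowerSeries ℤ ℚ P) =
      HahnSeries.ofPowerSeries ℤ ℚ (stretch N P) := by
  ext n
  rcases lt_or_ge n 0 with hn | hn
  · rw [ofPowerSeries_coeff_of_neg _ hn]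
    by_cases hd : (N : ℤ) ∣ n
    · obtain ⟨m, rfl⟩ := hd
      rw [qExpand_coeff_mul]
      refine ofPowerSeries_coeff_of_neg _ ?_
      exact neg_of_mul_neg_right hn (Int.natCast_nonneg N)
    · exact qExpand_coeff_of_not_dvd N _ hd
  · obtain ⟨m, rfl⟩ := Int.eq_ofNat_of_zero_le hn
    rw [HahnSeries.ofPowerSeries_apply_coeff, stretch, PowerSeries.coeff_mk]
    by_cases hd : N ∣ m
    · obtain ⟨i, rfl⟩ := hd
      rw [if_pos (dvd_mul_right N i), Nat.mul_div_cancel_left _ (NeZero.pos N), Nat.cast_mul,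
        qExpand_coeff_mul, HahnSeries.ofPowerSeries_apply_coeff]
    · rw [if_neg hd]
      exact qExpand_coeff_of_not_dvd N _ fun h => hd (Int.natCast_dvd_natCast.1 h)

/-- An integral `q`-expansion comes from a series over `ℚ`. -/
theorem exists_rat_series {f : ℍ → ℂ} (hf : MFCore.qExp f ∈ LevelOne.intSeries) :
    ∃ P : PowerSeries ℚ, MFCore.qExp f = P.map (Rat.castHom ℂ) := by
  obtain ⟨P, hP⟩ := hf
  refine ⟨P.map (Int.castRingHom ℚ), ?_⟩
  rw [← hP]
  ext n
  simp

/-- `f(Nτ)/f(τ)` for a level one form with rational coefficients. -/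
theorem exists_liftRatio {L : Type*} [Field L] [Algebra ℚ L] (ι : L →+* ℂ) {f : ℍ → ℂ}
    (hf : MFCore.IsLevelOne k f) (hf0 : f ≠ 0) (hq : MFCore.qExp f ∈ LevelOne.intSeries) :
    ∃ z : laurentBaseChange L (modularFunctionFieldFull N),
      (∀ σ : L ≃ₐ[ℚ] L, arithmeticGalois (modularFunctionFieldFull N) σ • z = z) ∧
      embed ι N z * ofHol f hf.holo =
        ofHol (MFCore.lift N f) (MFCore.lift_isForm hf).holo := by
  obtain ⟨P, hP⟩ := exists_rat_series hq
  obtain ⟨z, hz, hze⟩ := exists_embed_eq_div ι (MFCore.lift_isForm (N := N) hf) (hf.isForm N)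
    (qExp_lift_eq hf hP) hP hf0
  refine ⟨z, fun σ => Subtype.ext ?_, hze⟩
  rw [coe_arithmeticGalois_smul, hz, coeffMap_coeffEmb]

/-- An embedding of `ℚ̄` into `ℂ`. -/
def qbarToC : AlgebraicClosure ℚ →+* ℂ :=
  (IsAlgClosed.lift : AlgebraicClosure ℚ →ₐ[ℚ] ℂ).toRingHom

section ModularUnit

variable {L : Type*} [Field L] [Algebra ℚ L] (ι : L →+* ℂ)

/-- The series of the modular unit is in the function field and is `Δ(τ)/Δ(pτ)`. -/
theorem exists_embed_modularUnit (p : ℕ) [NeZero p] :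
    ∃ h : coeffEmb L (modularUnitSeries p) ∈ laurentBaseChange L (modularFunctionFieldFull p),
      embed ι p ⟨_, h⟩ * ofHol (MFCore.deltaN p) MFCore.deltaN_isForm.holo =
        ofHol ModularForm.discriminant MFCore.isLevelOne_discriminant.holo := by
  set P : PowerSeries ℚ := (PowerSeries.X * dedekindEtaUnit).map (Int.castRingHom ℚ)
  have hP : MFCore.qExp ModularForm.discriminant = P.map (Rat.castHom ℂ) := by
    rw [MFCore.qExp, LevelOne.qExpansion_discriminant]
    ext n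
    simp only [P, PowerSeries.coeff_map]
    simp
  have hne : MFCore.deltaN p ≠ 0 := fun h =>
    ModularForm.discriminant_ne_zero _ (congrFun h UpperHalfPlane.I)
  obtain ⟨z, hz, hze⟩ := exists_embed_eq_div ι (MFCore.isLevelOne_discriminant.isForm p)
    (MFCore.deltaN_isForm (N := p)) hP (qExp_lift_eq MFCore.isLevelOne_discriminant hP) hne
  have hd : deltaSeries = HahnSeries.ofPowerSeries ℤ ℚ P := by
    simp [P, deltaSeries, dedekindEtaUnitQ, HahnSeries.ofPowerSeries_X]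
  have hs : (z : LaurentSeries L) = coeffEmb L (modularUnitSeries p) := by
    rw [hz, modularUnitSeries, deltaSeriesN, hd, qExpand_ofPowerSeries, div_eq_mul_inv]
  refine ⟨hs ▸ z.2, ?_⟩
  rw [show (⟨_, hs ▸ z.2⟩ : laurentBaseChange L (modularFunctionFieldFull p)) = z from
    Subtype.ext hs.symm]
  exact hze

end ModularUnit

/-- The modular unit is in the function field over `ℚ̄`. -/
theorem modularUnit_mem (p : ℕ) [NeZero p] :
    coeffEmb (AlgebraicClosure ℚ) (modularUnitSeries p) ∈ modularFunctionFieldBar p :=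
  (exists_embed_modularUnit qbarToC p).1

/-- `Δ(τ)/Δ(pτ)` in the function field of `X₀(p)` over `ℚ̄`. -/
def eElt (p : ℕ) [NeZero p] : modularFunctionFieldBar p := ⟨_, modularUnit_mem p⟩

/-- The expansion of `eElt p` is the series of the modular unit. -/
theorem coe_eElt (p : ℕ) [NeZero p] :
    (eElt p : LaurentSeries (AlgebraicClosure ℚ)) =
      coeffEmb (AlgebraicClosure ℚ) (modularUnitSeries p) := rfl

end Fermat.Agent.MazurStep.Moduli
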