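import Fermat.Agent.MazurStep.Moduli.Weierstrass
import Mathlib.FieldTheory.Finite.Basic

/-!
# The lattice obtained by adjoining a point of odd prime order

`M = ⋃ₐ (a z₀ + L)`: the Eisenstein sums of `M` in terms of `℘_L (a z₀)`, and
`Δ(M) ∏_{a ≠ 0} ℘'_L(a z₀)⁴ = Δ(L) ^ p`.
-/

set_option autoImplicit false

noncomputable section

open Filter Topology

open scoped PeriodPair

namespace Fermat.Agent.MazurStep.Moduli

open Fermat.Agent

/-- The discriminant of a lattice. -/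
def discr (L : PeriodPair) : ℂ := L.g₂ ^ 3 - 27 * L.g₃ ^ 2

theorem sumInvPow_four (L : PeriodPair) {x : ℂ} (hx : x ∉ L.lattice) :
    L.sumInvPow x 4 = ℘[L] x ^ 2 - L.g₂ / 12 := by
  have h := L.iteratedDeriv_weierstrassPExcept_self x (n := 2)
  rw [L.weierstrassPExcept_of_notMem x hx, if_neg (by norm_num), iteratedDeriv_succ',
    iteratedDeriv_one, L.deriv_weierstrassP, (hasDerivAt_derivWeierstrassP L hx).deriv] at h
  simp [Nat.factorial] at h
  linear_combination -h / 6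

theorem sumInvPow_six (L : PeriodPair) {x : ℂ} (hx : x ∉ L.lattice) :
    L.sumInvPow x 6 = ℘[L] x ^ 3 - 3 / 20 * L.g₂ * ℘[L] x - L.g₃ / 10 := by
  have h := L.iteratedDeriv_weierstrassPExcept_self x (n := 4)
  have h2 : deriv ℘'[L] =ᶠ[𝓝 x] fun t => 6 * ℘[L] t ^ 2 - L.g₂ / 2 := by
    filter_upwards [L.isClosed_lattice.isOpen_compl.mem_nhds hx] with t ht
    exact (hasDerivAt_derivWeierstrassP L ht).deriv
  have h3 : deriv (deriv ℘'[L]) =ᶠ[𝓝 x] fun t => 12 * ℘[L] t * ℘'[L] t := by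
    filter_upwards [L.isClosed_lattice.isOpen_compl.mem_nhds hx, h2.eventuallyEq_nhds] with t ht ht2
    rw [ht2.deriv_eq]
    exact (((((hasDerivAt_weierstrassP L ht).fun_pow 2).const_mul 6).sub_const _).congr_deriv
      (by ring)).deriv
  have h4 : deriv (deriv (deriv ℘'[L])) x =
      12 * (℘'[L] x * ℘'[L] x + ℘[L] x * (6 * ℘[L] x ^ 2 - L.g₂ / 2)) := by
    rw [h3.deriv_eq]
    exact ((((hasDerivAt_weierstrassP L hx).const_mul 12).fun_mul
      (hasDerivAt_derivWeierstrassP L hx)).congr_deriv (by ring)).deriv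
  rw [L.weierstrassPExcept_of_notMem x hx, if_neg (by norm_num), iteratedDeriv_succ',
    iteratedDeriv_succ', iteratedDeriv_succ', iteratedDeriv_one, L.deriv_weierstrassP, h4] at h
  simp [Nat.factorial] at h
  linear_combination (-h + 12 * L.derivWeierstrassP_sq x hx) / 120

theorem hasDerivAt_sqMulP (L : PeriodPair) : HasDerivAt (LevelOne.sqMulP L) 0 0 := by
  refine ((((hasDerivAt_pow 2 (0 : ℂ)).fun_mul
    (L.analyticAt_weierstrassPExcept 0).differentiableAt.hasDerivAt).add_const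
      (1 : ℂ)).congr_of_eventuallyEq (Eventually.of_forall fun _ => rfl)).congr_deriv ?_
  simp

theorem derivWeierstrassP_half (L : PeriodPair) {h : ℂ} (h2 : 2 * h ∈ L.lattice) :
    ℘'[L] h = 0 := by
  have e : ℘'[L] (-h + 2 * h) = ℘'[L] (-h) := L.derivWeierstrassP_add_coe (-h) ⟨_, h2⟩
  rw [show -h + 2 * h = h by ring, L.derivWeierstrassP_neg] at e
  exact CharZero.eq_neg_self_iff.1 e

/-- `M` consists of the cosets `a z₀ + L`, `a ∈ ℤ/p`. -/
structure Ext (L M : PeriodPair) (z₀ : ℂ) (p : ℕ) : Prop where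
  mem_iff : ∀ x, x ∈ M.lattice ↔ ∃ a : ℤ, x - a * z₀ ∈ L.lattice
  mul_mem_iff : ∀ a : ℤ, (a : ℂ) * z₀ ∈ L.lattice ↔ (p : ℤ) ∣ a

namespace Ext

variable {L M : PeriodPair} {z₀ : ℂ} {p : ℕ} (E : Ext L M z₀ p)

/-- The representative `a z₀`. -/
def rep (z₀ : ℂ) {p : ℕ} (a : ZMod p) : ℂ := ((a.val : ℤ) : ℂ) * z₀

include E

theorem lattice_le {x : ℂ} (hx : x ∈ L.lattice) : x ∈ M.lattice :=
  (E.mem_iff x).2 ⟨0, by simpa using hx⟩

theorem rep_mem (a : ZMod p) : rep z₀ a ∈ M.lattice :=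
  (E.mem_iff _).2 ⟨a.val, by simp [rep]⟩

variable [NeZero p]

theorem rep_sub_mem {a : ZMod p} {b : ℤ} (h : (b : ZMod p) = a) :
    (b : ℂ) * z₀ - rep z₀ a ∈ L.lattice := by
  rw [rep, ← sub_mul, ← Int.cast_sub, E.mul_mem_iff, ← ZMod.intCast_zmod_eq_zero_iff_dvd]
  push_cast
  rw [h, ZMod.natCast_zmod_val, sub_self]

theorem rep_mem_iff (a : ZMod p) : rep z₀ a ∈ L.lattice ↔ a = 0 := by
  rw [rep, E.mul_mem_iff, ← ZMod.intCast_zmod_eq_zero_iff_dvd]
  push_cast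
  rw [ZMod.natCast_zmod_val]

theorem rep_neg (a : ZMod p) : rep z₀ (-a) + rep z₀ a ∈ L.lattice := by
  have := E.rep_sub_mem (a := -a) (b := -(a.val : ℤ)) (by push_cast; rw [ZMod.natCast_zmod_val])
  have h := neg_mem this
  convert h using 1
  simp [rep]

theorem rep_add_one (a : ZMod p) : rep z₀ a + z₀ - rep z₀ (a + 1) ∈ L.lattice := by
  have := E.rep_sub_mem (a := a + 1) (b := (a.val : ℤ) + 1)
    (by push_cast; rw [ZMod.natCast_zmod_val])
  convert this using 1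
  simp [rep]
  ring

omit E [NeZero p] in
theorem rep_zero : rep z₀ (0 : ZMod p) = 0 := by simp [rep]

/-- The decomposition of `M` into cosets. -/
theorem bijective_decomp :
    Function.Bijective fun x : ZMod p × L.lattice =>
      (⟨rep z₀ x.1 + x.2, add_mem (E.rep_mem x.1) (E.lattice_le x.2.2)⟩ : M.lattice) := by
  constructor
  · rintro ⟨a, l⟩ ⟨b, m⟩ h
    have h' : rep z₀ a + (l : ℂ) = rep z₀ b + m := congrArg Subtype.val h
    have hab : a = b := by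
      have hmem : ((a.val : ℤ) - b.val : ℤ) * z₀ ∈ L.lattice := by
        convert sub_mem m.2 l.2 using 1
        push_cast
        simp only [rep] at h'
        push_cast at h'
        linear_combination h'
      rw [E.mul_mem_iff, ← ZMod.intCast_zmod_eq_zero_iff_dvd] at hmem
      push_cast at hmem
      rwa [ZMod.natCast_zmod_val, ZMod.natCast_zmod_val, sub_eq_zero] at hmem
    subst hab
    exact Prod.ext rfl (Subtype.ext (add_left_cancel h'))
  · rintro ⟨x, hx⟩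
    obtain ⟨a, ha⟩ := (E.mem_iff x).1 hx
    have h2 := add_mem ha (E.rep_sub_mem (a := (a : ZMod p)) (b := a) rfl)
    refine ⟨(a, ⟨_, h2⟩), Subtype.ext ?_⟩
    simp

theorem G_eq (k : ℕ) (hk : 2 < k) :
    M.G k = L.G k + ∑ a ∈ (Finset.univ : Finset (ZMod p)).erase 0, L.sumInvPow (-rep z₀ a) k := by
  have hM : HasSum (fun m : M.lattice => (((m : ℂ)) ^ k)⁻¹) (M.G k) := by
    have := M.hasSum_sumInvPow 0 hk
    simpa [PeriodPair.sumInvPow_zero] using this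
  have h := (Equiv.hasSum_iff (Equiv.ofBijective _ E.bijective_decomp)).2 hM
  have h2 : HasSum (fun a : ZMod p => L.sumInvPow (-rep z₀ a) k) (M.G k) := by
    refine h.prod_fiberwise fun a => ?_
    refine (L.hasSum_sumInvPow (-rep z₀ a) hk).congr_fun fun l => ?_
    simp [add_comm]
  rw [← h2.tsum_eq, tsum_fintype, ← Finset.add_sum_erase _ _ (Finset.mem_univ 0)]
  simp [rep_zero]

theorem g₂_eq :
    M.g₂ = L.g₂ + 60 * ∑ a ∈ (Finset.univ : Finset (ZMod p)).erase 0,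
      (℘[L] (rep z₀ a) ^ 2 - L.g₂ / 12) := by
  rw [PeriodPair.g₂, E.G_eq 4 (by norm_num), mul_add, ← PeriodPair.g₂]
  congr 2
  refine Finset.sum_congr rfl fun a ha => ?_
  have hx : -rep z₀ a ∉ L.lattice := fun h =>
    Finset.ne_of_mem_erase ha ((E.rep_mem_iff a).1 (by simpa using neg_mem h))
  rw [sumInvPow_four L hx, L.weierstrassP_neg]

theorem g₃_eq :
    M.g₃ = L.g₃ + 140 * ∑ a ∈ (Finset.univ : Finset (ZMod p)).erase 0,
      (℘[L] (rep z₀ a) ^ 3 - 3 / 20 * L.g₂ * ℘[L] (rep z₀ a) - L.g₃ / 10) := by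
  rw [PeriodPair.g₃, E.G_eq 6 (by norm_num), mul_add, ← PeriodPair.g₃]
  congr 2
  refine Finset.sum_congr rfl fun a ha => ?_
  have hx : -rep z₀ a ∉ L.lattice := fun h =>
    Finset.ne_of_mem_erase ha ((E.rep_mem_iff a).1 (by simpa using neg_mem h))
  rw [sumInvPow_six L hx, L.weierstrassP_neg]

omit [NeZero p] in
/-- A half period of `L` is not in `M` when `p` is odd. -/
theorem notMem_of_half (hp : p.Prime) (hp2 : p ≠ 2) {h : ℂ} (h1 : h ∉ L.lattice)
    (h2 : 2 * h ∈ L.lattice) : h ∉ M.lattice := fun hm => h1 (by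
  obtain ⟨a, ha⟩ := (E.mem_iff h).1 hm
  have h3 := sub_mem h2 (add_mem ha ha)
  rw [show 2 * h - (h - (a : ℂ) * z₀ + (h - a * z₀)) = ((2 * a : ℤ) : ℂ) * z₀ by push_cast; ring,
    E.mul_mem_iff] at h3
  have hodd : ¬ (p : ℤ) ∣ 2 := fun hd =>
    hp2 ((Nat.prime_dvd_prime_iff_eq hp Nat.prime_two).1 (by exact_mod_cast hd))
  have h4 := ((Nat.prime_iff_prime_int.1 hp).dvd_or_dvd h3).resolve_left hodd
  simpa using add_mem ha ((E.mul_mem_iff a).2 h4))

omit [NeZero p] in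
theorem add_rep_notMem {h : ℂ} (h1 : h ∉ M.lattice) (a : ZMod p) :
    h + rep z₀ a ∉ L.lattice := fun hm =>
  h1 (by simpa using sub_mem (E.lattice_le hm) (E.rep_mem a))

theorem weierstrassP_rep_sub_ne {h : ℂ} (h1 : h ∉ M.lattice) {a : ZMod p} (ha : a ≠ 0) :
    ℘[L] (rep z₀ a) - ℘[L] h ≠ 0 := by
  intro h0
  rw [sub_eq_zero] at h0
  rcases add_or_sub_mem_of_eq L (fun hm => ha ((E.rep_mem_iff a).1 hm))
      (fun hm => h1 (E.lattice_le hm)) h0 with hm | hm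
  · exact E.add_rep_notMem h1 a (by rwa [add_comm])
  · exact E.add_rep_notMem h1 (-a) (by
      have := sub_mem (E.rep_neg a) hm
      rwa [show rep z₀ (-a) + rep z₀ a - (rep z₀ a - h) = h + rep z₀ (-a) by ring] at this)

/-- `℘_M - ℘_M(h)` is the product of the translates of `℘_L - ℘_L(h)`, up to a constant. -/
theorem weierstrassP_sub_eq {h : ℂ} (h1 : h ∉ M.lattice) {t : ℂ} (ht : t ∉ M.lattice) :
    ℘[M] t - ℘[M] h =
      (∏ a ∈ (Finset.univ : Finset (ZMod p)).erase 0, (℘[L] (rep z₀ a) - ℘[L] h))⁻¹ *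
        ∏ a : ZMod p, (℘[L] (t + rep z₀ a) - ℘[L] h) := by
  classical
  set S := (Finset.univ : Finset (ZMod p)).erase 0
  set k := (∏ a ∈ S, (℘[L] (rep z₀ a) - ℘[L] h))⁻¹
  set Φ : ℂ → ℂ := fun z => k * ∏ a : ZMod p, (℘[L] (z + rep z₀ a) - ℘[L] h) -
    (℘[M] z - ℘[M] h)
  have hk0 : (∏ a ∈ S, (℘[L] (rep z₀ a) - ℘[L] h)) ≠ 0 :=
    Finset.prod_ne_zero_iff.2 fun a ha =>
      E.weierstrassP_rep_sub_ne h1 (Finset.ne_of_mem_erase ha)
  have hPL : ∀ z l, l ∈ L.lattice → ℘[L] (z + l) = ℘[L] z :=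
    fun z l hl => L.weierstrassP_add_coe z ⟨l, hl⟩
  have hshift : ∀ z, Φ (z + z₀) = Φ z := by
    intro z
    have e1 : ℘[M] (z + z₀) = ℘[M] z :=
      M.weierstrassP_add_coe z ⟨z₀, (E.mem_iff z₀).2 ⟨1, by simp⟩⟩
    simp only [Φ, e1]
    congr 2
    refine Fintype.prod_equiv (Equiv.addRight (1 : ZMod p)) _ _ fun a => ?_
    simp only [Equiv.coe_addRight]
    rw [show z + z₀ + rep z₀ a =
      z + rep z₀ (a + 1) + (rep z₀ a + z₀ - rep z₀ (a + 1)) by ring,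
      hPL _ _ (E.rep_add_one a)]
  have hper : ∀ z m, m ∈ M.lattice → Φ (z + m) = Φ z := by
    have hL : ∀ z l, l ∈ L.lattice → Φ (z + l) = Φ z := by
      intro z l hl
      have e1 : ℘[M] (z + l) = ℘[M] z := M.weierstrassP_add_coe z ⟨l, E.lattice_le hl⟩
      simp only [Φ, e1, add_right_comm z l, hPL _ _ hl]
    have hper0 : Function.Periodic Φ z₀ := hshift
    intro z m hm
    obtain ⟨a, ha⟩ := (E.mem_iff m).1 hm
    rw [show z + m = z + (m - a * z₀) + a * z₀ by ring, (hper0.int_mul a) _, hL _ _ ha]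
  -- the behaviour at `0`
  set B : ℂ → ℂ := fun z => k * ∏ a ∈ S, (℘[L] (z + rep z₀ a) - ℘[L] h)
  have hB : AnalyticAt ℂ B 0 := by
    refine analyticAt_const.mul (Finset.analyticAt_fun_prod _ fun a ha => ?_)
    refine ((L.analyticOnNhd_weierstrassP _ ?_).fun_comp (g := ℘[L]) (f := fun z => z + rep z₀ a)
      (by fun_prop)).sub analyticAt_const
    simpa using fun hm => Finset.ne_of_mem_erase ha ((E.rep_mem_iff a).1 hm)
  have hB0 : B 0 = 1 := by
    simp only [B, zero_add]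
    exact inv_mul_cancel₀ hk0
  have hBeven : ∀ z, B (-z) = B z := by
    intro z
    simp only [B]
    congr 1
    refine Finset.prod_nbij' (fun a => -a) (fun a => -a) ?_ ?_ ?_ ?_ ?_
    · intro a ha; simpa [S] using ha
    · intro a ha; simpa [S] using ha
    · simp
    · simp
    · intro a _
      rw [← L.weierstrassP_neg, show -(-z + rep z₀ a) = z + rep z₀ (-a) +
        -(rep z₀ (-a) + rep z₀ a) by ring, hPL _ _ (neg_mem (E.rep_neg a))]
  have hB1 : deriv B 0 = 0 := by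
    have e := deriv_comp_neg B (0 : ℂ)
    rw [show (fun z => B (-z)) = B from funext hBeven, neg_zero] at e
    exact CharZero.eq_neg_self_iff.1 e
  set A : ℂ → ℂ := fun z => B z * (LevelOne.sqMulP L z - ℘[L] h * z ^ 2) -
    (LevelOne.sqMulP M z - ℘[M] h * z ^ 2)
  have hA : AnalyticAt ℂ A 0 := by
    have := LevelOne.analyticAt_sqMulP L
    have := LevelOne.analyticAt_sqMulP M
    fun_prop
  have hA0 : A 0 = 0 := by simp [A, hB0, LevelOne.sqMulP]
  have hA1 : deriv A 0 = 0 := by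
    refine HasDerivAt.deriv (((hB.differentiableAt.hasDerivAt.fun_mul
      ((hasDerivAt_sqMulP L).fun_sub ((hasDerivAt_pow 2 (0 : ℂ)).const_mul (℘[L] h)))).fun_sub
      ((hasDerivAt_sqMulP M).fun_sub ((hasDerivAt_pow 2 (0 : ℂ)).const_mul
        (℘[M] h)))).congr_deriv ?_)
    simp [hB1]
  obtain ⟨A₂, hA₂, hAeq⟩ := (natCast_le_analyticOrderAt (n := 2) hA).1
    ((natCast_le_analyticOrderAt_iff_iteratedDeriv_eq_zero hA).2 fun i hi => by
      interval_cases i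
      · simpa using hA0
      · simpa [iteratedDeriv_one] using hA1)
  have hnear : ∀ᶠ z in 𝓝[≠] (0 : ℂ), Φ z = A₂ z := by
    filter_upwards [LevelOne.eventually_weierstrassP_eq L, LevelOne.eventually_weierstrassP_eq M,
      self_mem_nhdsWithin, mem_nhdsWithin_of_mem_nhds hAeq] with z hL hM hz hAz
    have hz0 : z ≠ 0 := hz
    have hAz' : A z = z ^ 2 * A₂ z := by simpa using hAz
    simp only [Φ]
    rw [← Finset.mul_prod_erase _ _ (Finset.mem_univ (0 : ZMod p)), rep_zero, add_zero, hL.2,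
      hM.2, show k * ((LevelOne.sqMulP L z / z ^ 2 - ℘[L] h) *
        ∏ a ∈ (Finset.univ : Finset (ZMod p)).erase 0, (℘[L] (z + rep z₀ a) - ℘[L] h)) =
        B z * (LevelOne.sqMulP L z / z ^ 2 - ℘[L] h) by simp only [B, S]; ring]
    field_simp
    simp only [A] at hAz'
    linear_combination hAz'
  set F : ℂ → ℂ := fun z => if z ∈ M.lattice then A₂ 0 else Φ z
  have hFper : ∀ z m, m ∈ M.lattice → F (z + m) = F z := by
    intro z m hm
    simp only [F, M.lattice.add_mem_iff_left hm, hper z m hm]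
  have hoff : ∀ z ∉ M.lattice, DifferentiableAt ℂ F z := by
    intro z hz
    refine DifferentiableAt.congr_of_eventuallyEq (f := Φ) ?_ ?_
    · refine ((DifferentiableAt.fun_finsetProd fun a _ => ?_).const_mul k).sub
        ((M.analyticOnNhd_weierstrassP z hz).differentiableAt.sub_const _)
      refine ((L.analyticOnNhd_weierstrassP _ fun hm => ?_).fun_comp (g := ℘[L])
        (f := fun z => z + rep z₀ a) (by fun_prop)).differentiableAt.sub_const _
      exact E.add_rep_notMem hz a hm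
    · filter_upwards [M.isClosed_lattice.isOpen_compl.mem_nhds hz] with w hw
      exact if_neg hw
  have hF0 : F =ᶠ[𝓝 0] A₂ := by
    rw [EventuallyEq, ← nhdsNE_sup_pure, eventually_sup]
    refine ⟨?_, by simp [F]⟩
    filter_upwards [hnear, LevelOne.eventually_weierstrassP_eq M] with z hz hz'
    simp only [F, if_neg hz'.1, hz]
  have hdiff : Differentiable ℂ F := by
    intro z
    by_cases hz : z ∈ M.lattice
    swap
    · exact hoff z hz
    have e : F = fun w => F (w + -z) := funext fun w => (hFper w _ (neg_mem hz)).symm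
    rw [e]
    refine (DifferentiableAt.comp z (g := F) (f := fun w => w + -z) ?_ (by fun_prop))
    rw [add_neg_cancel]
    exact hA₂.differentiableAt.congr_of_eventuallyEq hF0
  have hbd :=
    (IsZLattice.isCompact_range_of_periodic M.lattice F hdiff.continuous hFper).isBounded
  have hc := hdiff.apply_eq_apply_of_bounded hbd t h
  simp only [F, if_neg ht, if_neg h1] at hc
  have hh0 : Φ h = 0 := by
    simp only [Φ]
    rw [Finset.prod_eq_zero (Finset.mem_univ (0 : ZMod p)) (by simp [rep_zero])]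
    simp
  rw [hh0] at hc
  exact (sub_eq_zero.1 hc).symm

/-- The difference of two half period values of `℘_M`. -/
theorem sub_half_eq {h₁ h₂ h₃ : ℂ} (h1 : h₁ ∉ M.lattice) (h2 : h₂ ∉ M.lattice)
    (h22 : 2 * h₂ ∈ L.lattice)
    (hroots : ∀ u : ℂ, 4 * u ^ 3 - L.g₂ * u - L.g₃ =
      4 * ((u - ℘[L] h₁) * (u - ℘[L] h₂) * (u - ℘[L] h₃))) :
    ℘[M] h₂ - ℘[M] h₁ = (℘[L] h₂ - ℘[L] h₁) ^ p *
      ∏ a ∈ (Finset.univ : Finset (ZMod p)).erase 0, ((℘[L] (rep z₀ a) - ℘[L] h₃) /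
        ((℘[L] (rep z₀ a) - ℘[L] h₂) * (℘[L] (rep z₀ a) - ℘[L] h₁))) := by
  classical
  rw [E.weierstrassP_sub_eq h1 h2, ← Finset.mul_prod_erase _ _ (Finset.mem_univ (0 : ZMod p)),
    rep_zero, add_zero]
  set S := (Finset.univ : Finset (ZMod p)).erase 0
  have hcard : S.card = p - 1 := by
    rw [Finset.card_erase_of_mem (Finset.mem_univ _), Finset.card_univ, ZMod.card]
  have hpow : ∀ x : ℂ, x ^ p = x * ∏ a ∈ S, x := fun x => by
    rw [Finset.prod_const, hcard, ← pow_succ', Nat.sub_add_cancel (NeZero.pos p)]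
  rw [hpow, mul_assoc, ← Finset.prod_mul_distrib]
  rw [mul_left_comm, ← Finset.prod_inv_distrib, ← Finset.prod_mul_distrib]
  congr 1
  refine Finset.prod_congr rfl fun a ha => ?_
  have ha0 := Finset.ne_of_mem_erase ha
  have hw : rep z₀ a ∉ L.lattice := fun hm => ha0 ((E.rep_mem_iff a).1 hm)
  have n1 := E.weierstrassP_rep_sub_ne h1 ha0
  have n2 := E.weierstrassP_rep_sub_ne h2 ha0
  have hs : rep z₀ a + h₂ ∉ L.lattice := by
    rw [add_comm]; exact E.add_rep_notMem h2 a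
  have hd : rep z₀ a - h₂ ∉ L.lattice := fun hm =>
    hs (by simpa [sub_add_eq_add_sub, two_mul, ← add_assoc] using add_mem hm h22)
  rw [add_comm h₂,
    (weierstrassP_add L hw (fun hm => h2 (E.lattice_le hm)) hs hd).1, addX, chord,
    derivWeierstrassP_half L h22, sub_zero, div_pow,
    L.derivWeierstrassP_sq _ hw, hroots]
  field_simp
  have hsum : ℘[L] h₁ + ℘[L] h₂ + ℘[L] h₃ = 0 := by
    have q0 := hroots 0
    have q1 := hroots 1
    have q2 := hroots 2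
    linear_combination (-q0 + 2 * q1 - q2) / 8 * (-1 : ℂ)
  linear_combination -(℘[L] (rep z₀ a) - ℘[L] h₂) * hsum

/-- **Product formula for the discriminant.** -/
theorem discr_mul_prod (hp : p.Prime) (hp2 : p ≠ 2) :
    discr M * ∏ a ∈ (Finset.univ : Finset (ZMod p)).erase 0, ℘'[L] (rep z₀ a) ^ 4 =
      discr L ^ p := by
  classical
  set h₁ := L.ω₁ / 2
  set h₂ := L.ω₂ / 2
  set h₃ := (L.ω₁ + L.ω₂) / 2
  have hω := @PeriodPair.mul_ω₁_add_mul_ω₂_mem_lattice L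
  have n1 : h₁ ∉ L.lattice := L.ω₁_div_two_notMem_lattice
  have n2 : h₂ ∉ L.lattice := L.ω₂_div_two_notMem_lattice
  have n3 : h₃ ∉ L.lattice := fun h => by
    have := (hω (α := 1/2) (β := 1/2)).1 (by convert h using 1; simp [h₃]; ring)
    norm_num at this
  have t1 : 2 * h₁ ∈ L.lattice := by
    simpa [h₁, mul_div_cancel₀] using L.ω₁_mem_lattice
  have t2 : 2 * h₂ ∈ L.lattice := by
    simpa [h₂, mul_div_cancel₀] using L.ω₂_mem_lattice
  have t3 : 2 * h₃ ∈ L.lattice := by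
    simpa [h₃, mul_div_cancel₀] using add_mem L.ω₁_mem_lattice L.ω₂_mem_lattice
  have ne : ∀ {x y : ℂ}, x ∉ L.lattice → y ∉ L.lattice → 2 * y ∈ L.lattice → x - y ∉ L.lattice →
      ℘[L] x ≠ ℘[L] y := by
    intro x y hx hy hy2 hxy h
    rcases add_or_sub_mem_of_eq L hx hy h with h' | h'
    · exact hxy (by simpa [two_mul, sub_eq_add_neg, add_comm, add_left_comm] using sub_mem h' hy2)
    · exact hxy h'
  have d12 : h₁ - h₂ ∉ L.lattice := fun h => by
    have := (hω (α := 1/2) (β := -1/2)).1 (by convert h using 1; simp [h₁, h₂]; ring)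
    norm_num at this
  have d13 : h₁ - h₃ ∉ L.lattice := fun h => n2 (by
    have := neg_mem h; convert this using 1; simp [h₁, h₂, h₃]; ring)
  have d23 : h₂ - h₃ ∉ L.lattice := fun h => n1 (by
    have := neg_mem h; convert this using 1; simp [h₁, h₂, h₃]; ring)
  set e₁ := ℘[L] h₁ with he₁
  set e₂ := ℘[L] h₂ with he₂
  set e₃ := ℘[L] h₃ with he₃
  have ne12 : e₁ - e₂ ≠ 0 := sub_ne_zero.2 (ne n1 n2 t2 d12)
  have ne13 : e₁ - e₃ ≠ 0 := sub_ne_zero.2 (ne n1 n3 t3 d13)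
  have ne23 : e₂ - e₃ ≠ 0 := sub_ne_zero.2 (ne n2 n3 t3 d23)
  have roots : ∀ (K : PeriodPair) {f₁ f₂ f₃ : ℂ}, f₁ - f₂ ≠ 0 → f₁ - f₃ ≠ 0 → f₂ - f₃ ≠ 0 →
      4 * f₁ ^ 3 - K.g₂ * f₁ - K.g₃ = 0 → 4 * f₂ ^ 3 - K.g₂ * f₂ - K.g₃ = 0 →
      4 * f₃ ^ 3 - K.g₂ * f₃ - K.g₃ = 0 →
      (∀ u, 4 * u ^ 3 - K.g₂ * u - K.g₃ = 4 * ((u - f₁) * (u - f₂) * (u - f₃))) ∧
        discr K = 16 * ((f₁ - f₂) * (f₁ - f₃) * (f₂ - f₃)) ^ 2 := by
    intro K f₁ f₂ f₃ a12 a13 a23 q1 q2 q3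
    have g12 : K.g₂ = 4 * (f₁ ^ 2 + f₁ * f₂ + f₂ ^ 2) :=
      mul_left_cancel₀ a12 (by linear_combination q2 - q1)
    have g13 : K.g₂ = 4 * (f₁ ^ 2 + f₁ * f₃ + f₃ ^ 2) :=
      mul_left_cancel₀ a13 (by linear_combination q3 - q1)
    obtain rfl : f₃ = -f₁ - f₂ := by
      have := mul_left_cancel₀ a23 (b := f₁ + f₂ + f₃) (c := 0)
        (by linear_combination (g13 - g12) / 4)
      linear_combination this
    have g3 : K.g₃ = 4 * (f₁ * f₂ * (-f₁ - f₂)) := by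
      linear_combination -q1 - f₁ * g12
    refine ⟨fun u => ?_, ?_⟩
    · rw [g12, g3]; ring
    · rw [discr, g12, g3]; ring
  have hL3 : ∀ {h}, h ∉ L.lattice → 2 * h ∈ L.lattice →
      4 * ℘[L] h ^ 3 - L.g₂ * ℘[L] h - L.g₃ = 0 := fun {h} hn ht => by
    rw [← L.derivWeierstrassP_sq h hn, derivWeierstrassP_half L ht]
    ring
  obtain ⟨hroots, hdL⟩ := roots L ne12 ne13 ne23 (hL3 n1 t1) (hL3 n2 t2) (hL3 n3 t3)
  have m1 := E.notMem_of_half hp hp2 n1 t1
  have m2 := E.notMem_of_half hp hp2 n2 t2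
  have m3 := E.notMem_of_half hp hp2 n3 t3
  set S := (Finset.univ : Finset (ZMod p)).erase 0
  set u := fun a : ZMod p => ℘[L] (rep z₀ a)
  have D21 : ℘[M] h₂ - ℘[M] h₁ =
      (e₂ - e₁) ^ p * ∏ a ∈ S, ((u a - e₃) / ((u a - e₂) * (u a - e₁))) :=
    E.sub_half_eq m1 m2 t2 hroots
  have D31 : ℘[M] h₃ - ℘[M] h₁ =
      (e₃ - e₁) ^ p * ∏ a ∈ S, ((u a - e₂) / ((u a - e₃) * (u a - e₁))) :=
    E.sub_half_eq m1 m3 t3 fun x => by rw [hroots x]; ring
  have D32 : ℘[M] h₃ - ℘[M] h₂ =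
      (e₃ - e₂) ^ p * ∏ a ∈ S, ((u a - e₁) / ((u a - e₃) * (u a - e₂))) :=
    E.sub_half_eq m2 m3 t3 fun x => by rw [hroots x]; ring
  have hu : ∀ a ∈ S, u a - e₁ ≠ 0 ∧ u a - e₂ ≠ 0 ∧ u a - e₃ ≠ 0 := fun a ha =>
    ⟨E.weierstrassP_rep_sub_ne m1 (Finset.ne_of_mem_erase ha),
      E.weierstrassP_rep_sub_ne m2 (Finset.ne_of_mem_erase ha),
      E.weierstrassP_rep_sub_ne m3 (Finset.ne_of_mem_erase ha)⟩
  have hne : ∀ {i j : ℂ}, i - j ≠ 0 → ∀ f : ZMod p → ℂ, (∀ a ∈ S, f a ≠ 0) →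
      (i - j) ^ p * ∏ a ∈ S, f a ≠ 0 := fun h f hf =>
    mul_ne_zero (pow_ne_zero _ h) (Finset.prod_ne_zero_iff.2 hf)
  have hM3 : ∀ {h}, h ∉ M.lattice → 2 * h ∈ L.lattice →
      4 * ℘[M] h ^ 3 - M.g₂ * ℘[M] h - M.g₃ = 0 := fun {h} hn ht => by
    rw [← M.derivWeierstrassP_sq h hn, derivWeierstrassP_half M (E.lattice_le ht)]
    ring
  obtain ⟨-, hdM⟩ := roots M
    (f₁ := ℘[M] h₁) (f₂ := ℘[M] h₂) (f₃ := ℘[M] h₃)
    (by rw [← neg_sub, neg_ne_zero, D21]
        exact hne (by rwa [← neg_sub, neg_ne_zero]) _ fun a ha => by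
          obtain ⟨x, y, z⟩ := hu a ha; simp [x, y, z])
    (by rw [← neg_sub, neg_ne_zero, D31]
        exact hne (by rwa [← neg_sub, neg_ne_zero]) _ fun a ha => by
          obtain ⟨x, y, z⟩ := hu a ha; simp [x, y, z])
    (by rw [← neg_sub, neg_ne_zero, D32]
        exact hne (by rwa [← neg_sub, neg_ne_zero]) _ fun a ha => by
          obtain ⟨x, y, z⟩ := hu a ha; simp [x, y, z])
    (hM3 m1 t1) (hM3 m2 t2) (hM3 m3 t3)
  rw [hdM, hdL, show (℘[M] h₁ - ℘[M] h₂) * (℘[M] h₁ - ℘[M] h₃) * (℘[M] h₂ - ℘[M] h₃) =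
    -((℘[M] h₂ - ℘[M] h₁) * (℘[M] h₃ - ℘[M] h₁) * (℘[M] h₃ - ℘[M] h₂)) by ring, D21, D31, D32]
  have hprod : ((∏ a ∈ S, ((u a - e₃) / ((u a - e₂) * (u a - e₁)))) *
      (∏ a ∈ S, ((u a - e₂) / ((u a - e₃) * (u a - e₁)))) *
      (∏ a ∈ S, ((u a - e₁) / ((u a - e₃) * (u a - e₂))))) ^ 2 *
      ∏ a ∈ S, ℘'[L] (rep z₀ a) ^ 4 = (16 : ℂ) ^ (p - 1) := by
    have hcard : S.card = p - 1 := by
      rw [Finset.card_erase_of_mem (Finset.mem_univ _), Finset.card_univ, ZMod.card]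
    rw [← Finset.prod_mul_distrib, ← Finset.prod_mul_distrib, ← Finset.prod_pow,
      ← Finset.prod_mul_distrib, ← hcard, ← Finset.prod_const]
    refine Finset.prod_congr rfl fun a ha => ?_
    obtain ⟨x, y, z⟩ := hu a ha
    have hw : rep z₀ a ∉ L.lattice := fun hm =>
      Finset.ne_of_mem_erase ha ((E.rep_mem_iff a).1 hm)
    rw [show ℘'[L] (rep z₀ a) ^ 4 = (℘'[L] (rep z₀ a) ^ 2) ^ 2 by ring,
      L.derivWeierstrassP_sq _ hw, hroots]
    field_simp
    simp only [u]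
    ring
  have hpow : (16 : ℂ) ^ p = 16 * 16 ^ (p - 1) := by
    rw [← pow_succ', Nat.sub_add_cancel hp.one_le]
  calc _ = 16 * (((e₂ - e₁) * (e₃ - e₁) * (e₃ - e₂)) ^ p) ^ 2 *
      (((∏ a ∈ S, ((u a - e₃) / ((u a - e₂) * (u a - e₁)))) *
      (∏ a ∈ S, ((u a - e₂) / ((u a - e₃) * (u a - e₁)))) *
      (∏ a ∈ S, ((u a - e₁) / ((u a - e₃) * (u a - e₂))))) ^ 2 *
      ∏ a ∈ S, ℘'[L] (rep z₀ a) ^ 4) := by
        rw [show ((e₂ - e₁) * (e₃ - e₁) * (e₃ - e₂)) ^ p =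
          (e₂ - e₁) ^ p * (e₃ - e₁) ^ p * (e₃ - e₂) ^ p by rw [mul_pow, mul_pow]]
        generalize (∏ a ∈ S, ((u a - e₃) / ((u a - e₂) * (u a - e₁)))) = P₁
        generalize (∏ a ∈ S, ((u a - e₂) / ((u a - e₃) * (u a - e₁)))) = P₂
        generalize (∏ a ∈ S, ((u a - e₁) / ((u a - e₃) * (u a - e₂)))) = P₃
        generalize (e₂ - e₁) ^ p = A₁
        generalize (e₃ - e₁) ^ p = A₂
        generalize (e₃ - e₂) ^ p = A₃
        ring
    _ = _ := by
      rw [hprod, mul_pow (16 : ℂ), hpow, ← pow_mul, ← pow_mul, mul_comm p 2, pow_mul, pow_mul,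
        show ((e₂ - e₁) * (e₃ - e₁) * (e₃ - e₂)) ^ 2 =
          ((e₁ - e₂) * (e₁ - e₃) * (e₂ - e₃)) ^ 2 by ring]
      ring

end Ext

end Fermat.Agent.MazurStep.Moduli
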