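import Fermat.Agent.MazurStep.Moduli.RatElt
import Fermat.Agent.MazurStep.Moduli.Lattice
import Fermat.Agent.MFGenus.AnalyticPlaces

/-!
# Values of functions at the places over a non-elliptic point

`exists_places`: the places over `j τ`, for `τ` non-elliptic, correspond to the cosets of `Γ₀(N)`.
`hasVal_iff`: at the place of `γ` a quotient of forms has the value of that quotient at `γ • τ`.
`mem_Gamma0_of_ratios`: for level `p` the ratios `E₄(pτ)/E₄(τ)` and `E₆(pτ)/E₆(τ)` determine the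
coset.
-/

set_option autoImplicit false

noncomputable section

open CongruenceSubgroup ModularCurve AlgebraicCurve Filter Topology
open UpperHalfPlane hiding I
open scoped MatrixGroups Manifold ModularForm

namespace Fermat.Agent.MazurStep.Moduli

open Fermat.Agent Fermat.Agent.Kummer Fermat.Agent.Kummer.MeroH Fermat.Agent.MFGenus

/-- `z` takes the value `a` at `v`. -/
def HasVal {K F : Type*} [Field K] [Field F] [Algebra K F] (v : Place K F) (z : F) (a : K) :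
    Prop :=
  z - algebraMap K F a = 0 ∨ 0 < v.ord (z - algebraMap K F a)

theorem hasVal_smul {K F : Type*} [Field K] [Field F] [Algebra K F] (g : SemilinearAut K F)
    {v : Place K F} {z : F} {a : K} (hz : g • z = z) (ha : SemilinearAut.baseAut g a = a)
    (h : HasVal v z a) : HasVal (g • v) z a := by
  have e : g • (z - algebraMap K F a) = z - algebraMap K F a := by
    rw [smul_sub, hz, SemilinearAut.smul_algebraMap, ha]
  rcases h with h | h
  · exact Or.inl h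
  · right
    rw [← e, SemilinearAut.ord_smul]
    exact h

/-- A holomorphic function has positive order exactly at its zeros. -/
theorem ordPoint_ofHol_pos_iff (τ : ℍ) {φ : ℍ → ℂ} (hφ : MDiff φ) (h0 : φ ≠ 0) :
    0 < ordPoint τ (ofHol φ hφ) ↔ φ τ = 0 := by
  have han : AnalyticAt ℂ (φ ∘ ofComplex) (τ : ℂ) :=
    (UpperHalfPlane.mdifferentiable_iff.1 hφ).analyticOnNhd isOpen_uhp _ τ.im_pos
  have hne := ofHol_ne_zero hφ h0
  have h1 : ((ordPoint τ (ofHol φ hφ) : ℤ) : WithTop ℤ) =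
      (analyticOrderAt (φ ∘ ofComplex) (τ : ℂ)).map (Nat.cast : ℕ → ℤ) := by
    rw [coe_ordPoint hne, ← han.meromorphicOrderAt_eq, ofHol]
    exact ordAt_mk _ (coe_mem_uhp τ)
  have h2 := han.analyticOrderAt_ne_zero
  rw [Function.comp_apply, ofComplex_apply] at h2
  rw [← h2]
  cases hn : analyticOrderAt (φ ∘ ofComplex) (τ : ℂ) with
  | top => rw [hn] at h1; simp at h1
  | coe n =>
    rw [hn] at h1
    have h3 : ordPoint τ (ofHol φ hφ) = (n : ℤ) := by
      rw [ENat.map_natCast] at h1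
      exact_mod_cast h1
    rw [h3]
    simp [Nat.pos_iff_ne_zero]

theorem ordPoint_ofHol_nonneg (τ : ℍ) {φ : ℍ → ℂ} (hφ : MDiff φ) (h0 : φ ≠ 0)
    (hτ : φ τ ≠ 0) : ordPoint τ (ofHol φ hφ) = 0 := by
  refine le_antisymm (not_lt.1 fun h => hτ ((ordPoint_ofHol_pos_iff τ hφ h0).1 h)) ?_
  have han : AnalyticAt ℂ (φ ∘ ofComplex) (τ : ℂ) :=
    (UpperHalfPlane.mdifferentiable_iff.1 hφ).analyticOnNhd isOpen_uhp _ τ.im_pos
  rw [← WithTop.coe_le_coe, coe_ordPoint (ofHol_ne_zero hφ h0), ofHol,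
    ordAt_mk _ (coe_mem_uhp τ), WithTop.coe_zero]
  exact han.meromorphicOrderAt_nonneg

variable {L : Type*} [Field L] [Algebra ℚ L] {N : ℕ} [NeZero N] (ι : L →+* ℂ)

omit [NeZero N] in
/-- At the place of `γτ` the quotient `f/g` takes the value `a` iff `f(γτ) = a g(γτ)`. -/
theorem hasVal_iff {τ : ℍ} (γ : SL(2, ℤ)) {v : Place L (FL L N)}
    (hv : ∀ f : FL L N, f ≠ 0 → ordPoint τ (slComp γ (embed ι N f)) = v.ord f)
    {z : FL L N} {f g : ℍ → ℂ} (hf : MDiff f) (hg : MDiff g)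
    (hz : embed ι N z * ofHol g hg = ofHol f hf) (hg0 : g (γ • τ) ≠ 0) (a : L) :
    HasVal v z a ↔ f (γ • τ) = ι a * g (γ • τ) := by
  have hgne : g ≠ 0 := fun h => hg0 (congrFun h _)
  set φ : ℍ → ℂ := fun t => f t - ι a * g t
  have hcg : MDiff (fun t : ℍ => ι a * g t) := mdifferentiable_const.mul hg
  have hφ : MDiff φ := hf.sub hcg
  have key : embed ι N (z - algebraMap L _ a) * ofHol g hg = ofHol φ hφ := by
    rw [map_sub, embed_algebraMap, sub_mul, hz, ← MFGenus.ofHol_const, holMul]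
    rfl
  by_cases h0 : φ = 0
  · refine iff_of_true (Or.inl ?_) (sub_eq_zero.1 (congrFun h0 _))
    have : embed ι N (z - algebraMap L _ a) = 0 := by
      have e : ofHol φ hφ = 0 := (ofHol_congr hφ (mdifferentiable_const (c := (0 : ℂ))) h0).trans
        ((MFGenus.ofHol_const 0).trans (map_zero _))
      exact (mul_eq_zero.1 (key.trans e)).resolve_right (ofHol_ne_zero hg hgne)
    exact (map_eq_zero _).1 this
  have hne : z - algebraMap L _ a ≠ 0 := fun h => ofHol_ne_zero hφ h0 (by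
    rw [← key, h, map_zero, zero_mul])
  have hord : v.ord (z - algebraMap L _ a) = ordPoint (γ • τ) (ofHol φ hφ) := by
    rw [← key, (isOrd_ordPoint _).map_mul _ _ ((map_ne_zero _).2 hne) (ofHol_ne_zero hg hgne),
      ordPoint_ofHol_nonneg _ hg hgne hg0, add_zero, ← ordPoint_slComp, hv _ hne]
  rw [HasVal, or_iff_right hne, hord, ordPoint_ofHol_pos_iff _ hφ h0]
  exact sub_eq_zero

/-- The places over the value `j(τ)`, `τ` not elliptic. -/
theorem exists_places [IsAlgClosed L] {τ : ℍ} {x₀ : L} (hx₀ : ι x₀ = LevelOne.jFun τ)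
    (h4 : ModularForm.E₄ τ ≠ 0) (h6 : ModularForm.E₆ τ ≠ 0) :
    ∃ e : PointOrbit N (1 : SL(2, ℤ)) ≃
        {v : Place L (FL L N) // 0 < v.ord (jElt L N - algebraMap L _ x₀)},
      ∀ (γ : SL(2, ℤ)) (f : FL L N), f ≠ 0 →
        ordPoint τ (slComp γ (embed ι N f)) =
          (e (Quotient.mk'' (QuotientGroup.mk γ⁻¹ : SL(2, ℤ) ⧸ Gamma0 N))).1.ord f := by
  obtain ⟨e, he⟩ := exists_point_equiv (N := N) ι hx₀ (g := 1) (one_smul _ τ) (m := 1)
    (by rw [Nat.cast_one]; exact LevelOne.analyticOrderAt_jFun_sub h4 h6) (Or.inl rfl)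
    (fun q => by simp)
  refine ⟨e, fun γ f hf => ?_⟩
  have h := (he (QuotientGroup.mk γ⁻¹)).2 f hf
  rw [conjEmbed_mk, inv_inv] at h
  rw [h, pointStab]
  split_ifs <;> simp

theorem E_smul {k : ℕ} (hk : 3 ≤ k) (γ : SL(2, ℤ)) (τ : ℍ) :
    ModularForm.E hk (γ • τ) = ((γ 1 0 : ℂ) * τ + γ 1 1) ^ k * ModularForm.E hk τ := by
  have h := SlashInvariantFormClass.slash_action_eq (ModularForm.E hk) _
    (show (γ : GL (Fin 2) ℝ) ∈ 𝒮ℒ from ⟨γ, rfl⟩)
  have hτ : (⇑(ModularForm.E hk) ∣[(k : ℤ)] γ) τ = ModularForm.E hk τ := congrFun h τ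
  rw [ModularForm.SL_slash_apply, ModularGroup.denom_apply, zpow_neg, zpow_natCast] at hτ
  have hd : ((γ 1 0 : ℂ) * τ + γ 1 1) ≠ 0 := by
    have := UpperHalfPlane.denom_ne_zero (γ : GL (Fin 2) ℝ) τ
    rwa [ModularGroup.denom_apply] at this
  rw [← hτ]
  field_simp

/-- `E₄(pτ)/E₄(τ)` and `E₆(pτ)/E₆(τ)` separate the cosets of `Γ₀(p)` at a point. -/
theorem mem_Gamma0_of_ratios {p : ℕ} [NeZero p] {τ : ℍ} (γ : SL(2, ℤ)) {r₄ r₆ : ℂ}
    (a4 : ModularForm.E₄ (nTimes p τ) = r₄ * ModularForm.E₄ τ)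
    (a6 : ModularForm.E₆ (nTimes p τ) = r₆ * ModularForm.E₆ τ)
    (b4 : ModularForm.E₄ (nTimes p (γ • τ)) = r₄ * ModularForm.E₄ (γ • τ))
    (b6 : ModularForm.E₆ (nTimes p (γ • τ)) = r₆ * ModularForm.E₆ (γ • τ)) :
    γ ∈ Gamma0 p := by
  set μ : ℂ := (γ 1 0 : ℂ) * τ + γ 1 1 with hμ
  have hμ0 : μ ≠ 0 := by
    have := UpperHalfPlane.denom_ne_zero (γ : GL (Fin 2) ℝ) τ
    rwa [ModularGroup.denom_apply] at this
  have hp0 : (p : ℂ) ≠ 0 := by exact_mod_cast NeZero.ne p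
  have hc : (1 : ℂ) / p ≠ 0 := one_div_ne_zero hp0
  have hc' : μ / (p : ℂ) ≠ 0 := div_ne_zero hμ0 hp0
  have h4 : ModularForm.E₄ (γ • τ) = μ ^ 4 * ModularForm.E₄ τ := E_smul (k := 4) _ γ τ
  have h6 : ModularForm.E₆ (γ • τ) = μ ^ 6 * ModularForm.E₆ τ := E_smul (k := 6) _ γ τ
  have hlat : (lat (nTimes p (γ • τ)) hc').lattice = (lat (nTimes p τ) hc).lattice := by
    refine LevelOne.lattice_eq_of_g_eq ?_ ?_
    · rw [g₂_lat, g₂_lat, b4, a4, h4]
      field_simp
    · rw [g₃_lat, g₃_lat, b6, a6, h6]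
      field_simp
  have hmem : μ / (p : ℂ) ∈ (lat (nTimes p τ) hc).lattice :=
    hlat ▸ (mem_lat hc').2 ⟨0, 1, by simp⟩
  obtain ⟨a, b, hab⟩ := (mem_lat hc).1 hmem
  rw [coe_nTimes] at hab
  field_simp at hab
  obtain ⟨h1, -⟩ := LevelOne.int_coords_eq τ (a := (p : ℤ) * a) (b := b) (c := γ 1 0) (d := γ 1 1)
    (by push_cast; rw [← hμ]; linear_combination hab)
  rw [Gamma0_mem, ← h1]
  simp

end Fermat.Agent.MazurStep.Moduli
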