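import Fermat.Agent.LevelOne.Lattice

/-!
# The uniformisation of a Weierstrass curve over `ℂ`

The differential equation of second order for `℘`, the addition theorem, and the resulting
homomorphism `ℂ → V(ℂ)` with kernel the lattice, for `g₂ = c₄/12`, `g₃ = c₆/216`.
-/

set_option autoImplicit false

noncomputable section

open Filter Topology

open scoped PeriodPair

namespace Fermat.Agent.MazurStep.Moduli

open Fermat.Agent

/-! ### A uniqueness statement for second order linear equations -/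

theorem eventually_eq_zero_of_ode {d S : ℂ → ℂ} {a : ℂ} (hd : AnalyticAt ℂ d a)
    (hS : AnalyticAt ℂ S a) (h : deriv (deriv d) =ᶠ[𝓝 a] fun z => S z * d z) (h0 : d a = 0)
    (h1 : deriv d a = 0) : ∀ᶠ z in 𝓝 a, d z = 0 := by
  have hk : ∀ k, iteratedDeriv k d a = 0 := by
    intro k
    induction k using Nat.strong_induction_on with
    | _ k ih =>
      match k, ih with
      | 0, _ => simpa using h0
      | 1, _ => simpa [iteratedDeriv_one] using h1
      | n + 2, ih =>
        rw [iteratedDeriv_succ', iteratedDeriv_succ', h.iteratedDeriv_eq,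
          iteratedDeriv_fun_mul hS.contDiffAt hd.contDiffAt]
        refine Finset.sum_eq_zero fun i hi => ?_
        rw [ih (n - i) (by omega), mul_zero]
  have htop : analyticOrderAt d a = ⊤ :=
    ENat.eq_top_iff_forall_ge.2 fun n =>
      (natCast_le_analyticOrderAt_iff_iteratedDeriv_eq_zero hd).2 fun i _ => hk i
  exact analyticOrderAt_eq_top.1 htop

theorem eventually_nhds_of_nhdsNE {p : ℂ → Prop} {a : ℂ} (h : ∀ᶠ t in 𝓝[≠] a, p t) :
    ∀ᶠ t in 𝓝[≠] a, ∀ᶠ s in 𝓝 t, p s := by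
  obtain ⟨V, hV, hVo, ha⟩ := eventually_nhds_iff.1 (eventually_nhdsWithin_iff.1 h)
  filter_upwards [mem_nhdsWithin_of_mem_nhds (hVo.mem_nhds ha), self_mem_nhdsWithin] with t ht hne
  filter_upwards [(hVo.inter isOpen_compl_singleton).mem_nhds ⟨ht, hne⟩] with s hs
  exact hV s hs.1 hs.2

/-! ### Algebra of the chord construction -/

section Algebra

variable {u du c d g h : ℂ}

/-- The slope function. -/
def chord (u du c d : ℂ) : ℂ := (du - d) / (u - c)

/-- The first coordinate of the sum. -/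
def addX (u du c d : ℂ) : ℂ := chord u du c d ^ 2 / 4 - u - c

/-- The second coordinate of the sum. -/
def addY (u du c d : ℂ) : ℂ := -du - chord u du c d * (addX u du c d - u)

variable (hne : u ≠ c) (hu : du ^ 2 = 4 * u ^ 3 - g * u - h)
  (hc : d ^ 2 = 4 * c ^ 3 - g * c - h)

include hne hu hc

theorem deriv_chord_eq :
    ((6 * u ^ 2 - g / 2) * (u - c) - (du - d) * du) / (u - c) ^ 2 =
      -2 * (addX u du c d - u) := by
  simp only [addX, chord]
  field_simp
  linear_combination 4 * (hc - hu)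

theorem deriv_addY_eq :
    -(6 * u ^ 2 - g / 2) - (-2 * (addX u du c d - u) * (addX u du c d - u) +
        chord u du c d * (addY u du c d - du)) = 6 * addX u du c d ^ 2 - g / 2 := by
  simp only [addY, addX, chord]
  field_simp
  linear_combination 32 * (u - c) ^ 3 * (hu - hc)

end Algebra

theorem addX_laurent {t P P' c d g h : ℂ} (ht : t ≠ 0) (hA : P - c * t ^ 2 ≠ 0)
    (hrel : (t * P' - 2 * P) ^ 2 = 4 * P ^ 3 - g * t ^ 4 * P - h * t ^ 6) :
    addX (P / t ^ 2) ((t * P' - 2 * P) / t ^ 3) c d =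
      (8 * c * P ^ 2 + t * (-g * t * P - h * t ^ 3 - 2 * d * (t * P' - 2 * P) + d ^ 2 * t ^ 3 -
        4 * c ^ 2 * t * P)) / (4 * (P - c * t ^ 2) ^ 2) - c := by
  obtain ⟨A, rfl⟩ : ∃ A, P = A + c * t ^ 2 := ⟨P - c * t ^ 2, by ring⟩
  rw [add_sub_cancel_right] at hA ⊢
  have e : (A + c * t ^ 2) / t ^ 2 - c = A / t ^ 2 := by
    field_simp
    ring
  simp only [addX, chord, e]
  field_simp
  linear_combination hrel

/-! ### Properties of `℘` -/

variable (L : PeriodPair)

theorem tendsto_norm_weierstrassP {l : ℂ} (hl : l ∈ L.lattice) :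
    Tendsto (fun z => ‖℘[L] z‖) (𝓝[≠] l) atTop :=
  tendsto_norm_cobounded_atTop.comp
    (tendsto_cobounded_of_meromorphicOrderAt_neg (by rw [L.order_weierstrassP l hl]; decide))

theorem isPreconnected_compl {s : Set ℂ} (hs : s.Countable) : IsPreconnected sᶜ :=
  (hs.isPathConnected_compl_of_one_lt_rank LevelOne.rankOne_complex).isConnected.isPreconnected

theorem countable_translate (w : ℂ) : {z : ℂ | z + w ∈ L.lattice}.Countable :=
  (LevelOne.lattice_countable L).preimage (add_left_injective w)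

theorem hasDerivAt_weierstrassP {z : ℂ} (hz : z ∉ L.lattice) :
    HasDerivAt ℘[L] (℘'[L] z) z := by
  have := (L.analyticOnNhd_weierstrassP z hz).differentiableAt.hasDerivAt
  rwa [L.deriv_weierstrassP] at this

theorem exists_derivWeierstrassP_ne_zero : ∃ z ∉ L.lattice, ℘'[L] z ≠ 0 := by
  by_contra h
  push Not at h
  obtain ⟨z₀, hz₀⟩ := ((LevelOne.lattice_countable L).dense_compl ℂ).nonempty
  have hcon := isPreconnected_compl (LevelOne.lattice_countable L)
  have hconst : ∀ z ∉ L.lattice, ℘[L] z = ℘[L] z₀ := fun z hz =>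
    IsOpen.is_const_of_deriv_eq_zero L.isClosed_lattice.isOpen_compl hcon
      L.differentiableOn_weierstrassP (fun w hw => by rw [L.deriv_weierstrassP]; exact h w hw)
      hz hz₀
  have h1 : ∀ᶠ z in 𝓝[≠] (0 : ℂ), ‖℘[L] z‖ = ‖℘[L] z₀‖ := by
    filter_upwards [self_mem_nhdsWithin,
      mem_nhdsWithin_of_mem_nhds (L.compl_lattice_sdiff_singleton_mem_nhds 0)] with z hz hz'
    rw [hconst z fun hm => hz' ⟨hm, hz⟩]
  obtain ⟨z, hz1, hz2⟩ := (((tendsto_norm_weierstrassP L (zero_mem _)).eventually_gt_atTop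
    ‖℘[L] z₀‖).and h1).exists
  exact hz1.ne' hz2

theorem hasDerivAt_derivWeierstrassP {z : ℂ} (hz : z ∉ L.lattice) :
    HasDerivAt ℘'[L] (6 * ℘[L] z ^ 2 - L.g₂ / 2) z := by
  set U : Set ℂ := (L.lattice : Set ℂ)ᶜ
  have hU : IsOpen U := L.isClosed_lattice.isOpen_compl
  have hP := L.analyticOnNhd_weierstrassP
  have hP' := L.analyticOnNhd_derivWeierstrassP
  set D : ℂ → ℂ := fun w => deriv ℘'[L] w - (6 * ℘[L] w ^ 2 - L.g₂ / 2)
  have hD : AnalyticOnNhd ℂ D U := fun w hw => by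
    have := hP w hw
    have := (hP' w hw).deriv
    fun_prop
  have hmul : ∀ w ∈ U, ℘'[L] w * D w = 0 := by
    intro w hw
    have e : (fun t => ℘'[L] t ^ 2) =ᶠ[𝓝 w] fun t => 4 * ℘[L] t ^ 3 - L.g₂ * ℘[L] t - L.g₃ := by
      filter_upwards [hU.mem_nhds hw] with t ht
      exact L.derivWeierstrassP_sq t ht
    have h1 := ((hP' w hw).differentiableAt.hasDerivAt.pow 2).congr_of_eventuallyEq e.symm
    have h2 := ((((hasDerivAt_weierstrassP L hw).pow 3).const_mul 4).sub
      ((hasDerivAt_weierstrassP L hw).const_mul L.g₂)).sub_const L.g₃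
    have h3 := h1.unique h2
    simp only [D]
    push_cast at h3
    linear_combination h3 / 2
  rcases AnalyticOnNhd.eq_zero_or_eq_zero_of_smul_eq_zero hP' hD (fun w hw => hmul w hw)
      (isPreconnected_compl (LevelOne.lattice_countable L)) with h | h
  · obtain ⟨w, hw, hne⟩ := exists_derivWeierstrassP_ne_zero L
    exact absurd (h w hw) hne
  · have h0 : D z = 0 := h z hz
    rw [← sub_eq_zero.1 h0]
    exact (hP' z hz).differentiableAt.hasDerivAt

/-- `℘` and `℘'` together separate points of `ℂ / L`. -/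
theorem sub_mem_of_eq {z w : ℂ} (hz : z ∉ L.lattice) (hw : w ∉ L.lattice)
    (h0 : ℘[L] z = ℘[L] w) (h1 : ℘'[L] z = ℘'[L] w) : z - w ∈ L.lattice := by
  by_contra hzw
  set U : Set ℂ := ({t : ℂ | t + z ∈ L.lattice} ∪ {t : ℂ | t + w ∈ L.lattice})ᶜ
  have hUc : IsPreconnected U :=
    isPreconnected_compl ((countable_translate L z).union (countable_translate L w))
  have hA : ∀ v : ℂ, ∀ t, t + v ∉ L.lattice → AnalyticAt ℂ (fun t => ℘[L] (t + v)) t :=
    fun v t ht => (L.analyticOnNhd_weierstrassP _ ht).fun_comp (g := ℘[L])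
      (f := fun s => s + v) (by fun_prop)
  have hD1 : ∀ v : ℂ, ∀ t, t + v ∉ L.lattice →
      HasDerivAt (fun t => ℘[L] (t + v)) (℘'[L] (t + v)) t := fun v t ht =>
    (hasDerivAt_weierstrassP L ht).comp_add_const t v
  have hD2 : ∀ v : ℂ, ∀ t, t + v ∉ L.lattice →
      HasDerivAt (fun t => ℘'[L] (t + v)) (6 * ℘[L] (t + v) ^ 2 - L.g₂ / 2) t := fun v t ht =>
    (hasDerivAt_derivWeierstrassP L ht).comp_add_const t v
  have hz0 : (0 : ℂ) + z ∉ L.lattice := by simpa using hz
  have hw0 : (0 : ℂ) + w ∉ L.lattice := by simpa using hw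
  set d : ℂ → ℂ := fun t => ℘[L] (t + z) - ℘[L] (t + w)
  have hnz : ∀ v, (0 : ℂ) + v ∉ L.lattice → ∀ᶠ t in 𝓝 (0 : ℂ), t + v ∉ L.lattice := fun v hv =>
    (continuous_add_const v).continuousAt.preimage_mem_nhds
      (L.isClosed_lattice.isOpen_compl.mem_nhds hv)
  have hev : ∀ᶠ t in 𝓝 (0 : ℂ), d t = 0 := by
    refine eventually_eq_zero_of_ode (S := fun t => 6 * (℘[L] (t + z) + ℘[L] (t + w)))
      ((hA z 0 hz0).sub (hA w 0 hw0))
      (analyticAt_const.mul ((hA z 0 hz0).add (hA w 0 hw0))) ?_ (by simp [d, h0]) ?_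
    · filter_upwards [((hnz z hz0).and (hnz w hw0)).eventually_nhds] with t ht
      have e1 : deriv d =ᶠ[𝓝 t] fun s => ℘'[L] (s + z) - ℘'[L] (s + w) :=
        ht.mono fun s hs => ((hD1 z s hs.1).sub (hD1 w s hs.2)).deriv
      obtain ⟨htz, htw⟩ := ht.self_of_nhds
      rw [e1.deriv_eq, ((hD2 z t htz).fun_sub (hD2 w t htw)).deriv]
      simp only [d]
      ring
    · rw [show deriv d 0 = _ from ((hD1 z 0 hz0).sub (hD1 w 0 hw0)).deriv]
      simp [h1]
  have hEq : Set.EqOn (fun t => ℘[L] (t + z)) (fun t => ℘[L] (t + w)) U := by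
    refine AnalyticOnNhd.eqOn_of_preconnected_of_eventuallyEq
      (fun t ht => hA z t fun h => ht (Or.inl h)) (fun t ht => hA w t fun h => ht (Or.inr h)) hUc
      (z₀ := 0) (fun h => h.elim hz0 hw0) ?_
    exact hev.mono fun t ht => sub_eq_zero.1 ht
  have hn : -z + w ∉ L.lattice := fun h => hzw (by simpa [sub_eq_neg_add] using neg_mem h)
  have hne : ∀ᶠ t in 𝓝[≠] (-z), t + w ∉ L.lattice :=
    mem_nhdsWithin_of_mem_nhds ((continuous_add_const w).continuousAt.preimage_mem_nhds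
      (L.isClosed_lattice.isOpen_compl.mem_nhds hn))
  have htz : Tendsto (fun t : ℂ => t + z) (𝓝[≠] (-z)) (𝓝[≠] 0) := by
    refine tendsto_nhdsWithin_of_tendsto_nhds_of_eventually_within _ ?_ ?_
    · exact ((continuous_add_const z).tendsto' (-z) 0 (neg_add_cancel z)).mono_left
        nhdsWithin_le_nhds
    · filter_upwards [self_mem_nhdsWithin] with t ht
      exact fun h => ht (eq_neg_of_add_eq_zero_left h)
  have hne' : ∀ᶠ t in 𝓝[≠] (-z), t + z ∉ L.lattice := by
    refine htz.eventually (p := fun s => s ∉ L.lattice) ?_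
    filter_upwards [self_mem_nhdsWithin,
      mem_nhdsWithin_of_mem_nhds (L.compl_lattice_sdiff_singleton_mem_nhds 0)] with s hs hs'
    exact fun hm => hs' ⟨hm, hs⟩
  have hlim : Tendsto (fun t => ‖℘[L] (t + w)‖) (𝓝[≠] (-z)) (𝓝 ‖℘[L] (-z + w)‖) :=
    ((L.analyticOnNhd_weierstrassP _ hn).continuousAt.comp' (f := fun s => s + w)
      (continuous_add_const w).continuousAt).norm.tendsto.mono_left nhdsWithin_le_nhds
  refine not_tendsto_atTop_of_tendsto_nhds hlim
    (((tendsto_norm_weierstrassP L (zero_mem _)).comp htz).congr' ?_)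
  filter_upwards [hne, hne'] with t ht ht'
  simp only [Function.comp_apply]
  rw [show ℘[L] (t + z) = ℘[L] (t + w) from hEq fun h => h.elim ht' ht]

theorem add_or_sub_mem_of_eq {z w : ℂ} (hz : z ∉ L.lattice) (hw : w ∉ L.lattice)
    (h0 : ℘[L] z = ℘[L] w) : z + w ∈ L.lattice ∨ z - w ∈ L.lattice := by
  have hsq : ℘'[L] z ^ 2 = ℘'[L] w ^ 2 := by
    rw [L.derivWeierstrassP_sq z hz, L.derivWeierstrassP_sq w hw, h0]
  rcases sq_eq_sq_iff_eq_or_eq_neg.1 hsq with h | h
  · exact Or.inr (sub_mem_of_eq L hz hw h0 h)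
  · left
    have := sub_mem_of_eq L hz (w := -w) (fun hm => hw (by simpa using neg_mem hm))
      (by rw [L.weierstrassP_neg]; exact h0) (by rw [L.derivWeierstrassP_neg]; exact h)
    simpa using this

/-- `℘` takes every value. -/
theorem exists_weierstrassP_eq (c : ℂ) : ∃ z ∉ L.lattice, ℘[L] z = c := by
  classical
  by_contra hcon
  push Not at hcon
  set f : ℂ → ℂ := fun z => if z ∈ L.lattice then 0 else (℘[L] z - c)⁻¹
  have hoff : ∀ z ∉ L.lattice, DifferentiableAt ℂ f z := by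
    intro z hz
    refine (((L.analyticOnNhd_weierstrassP z hz).differentiableAt.sub_const c).inv
      (sub_ne_zero.2 (hcon z hz))).congr_of_eventuallyEq ?_
    filter_upwards [L.isClosed_lattice.isOpen_compl.mem_nhds hz] with w hw
    exact if_neg hw
  have hdiff : Differentiable ℂ f := by
    intro z
    by_cases hz : z ∈ L.lattice
    swap
    · exact hoff z hz
    have hev : ∀ᶠ w in 𝓝[≠] z, w ∉ L.lattice := by
      filter_upwards [self_mem_nhdsWithin,
        mem_nhdsWithin_of_mem_nhds (L.compl_lattice_sdiff_singleton_mem_nhds z)] with w hw hw'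
      exact fun hm => hw' ⟨hm, hw⟩
    refine (Complex.analyticAt_of_differentiable_on_punctured_nhds_of_continuousAt
      (hev.mono fun w hw => hoff w hw) ?_).differentiableAt
    rw [continuousAt_iff_punctured_nhds, show f z = 0 from if_pos hz]
    have ht : Tendsto (fun w => ℘[L] w - c) (𝓝[≠] z) (Bornology.cobounded ℂ) := by
      rw [← tendsto_norm_atTop_iff_cobounded]
      exact tendsto_atTop_mono (fun w => norm_sub_norm_le _ _)
        (tendsto_atTop_add_const_right _ (-‖c‖) (tendsto_norm_weierstrassP L hz))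
    refine (Filter.tendsto_inv₀_cobounded.comp ht).congr' ?_
    filter_upwards [hev] with w hw
    exact (if_neg hw).symm
  have hper : ∀ z w, w ∈ L.lattice → f (z + w) = f z := by
    intro z w hw
    simp only [f]
    rw [show ℘[L] (z + w) = ℘[L] z from L.weierstrassP_add_coe z ⟨w, hw⟩]
    simp only [L.lattice.add_mem_iff_left hw]
  have hbd := (IsZLattice.isCompact_range_of_periodic L.lattice f hdiff.continuous hper).isBounded
  obtain ⟨z, hz⟩ := ((LevelOne.lattice_countable L).dense_compl ℂ).nonempty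
  have h := hdiff.apply_eq_apply_of_bounded hbd z 0
  simp only [f, if_neg (show z ∉ L.lattice from hz), if_pos (zero_mem L.lattice)] at h
  exact sub_ne_zero.2 (hcon z hz) (inv_eq_zero.1 h)

/-- **The addition theorem.** -/
theorem weierstrassP_add {z w : ℂ} (hz : z ∉ L.lattice) (hw : w ∉ L.lattice)
    (hs : z + w ∉ L.lattice) (hd : z - w ∉ L.lattice) :
    ℘[L] (z + w) = addX (℘[L] z) (℘'[L] z) (℘[L] w) (℘'[L] w) ∧
      ℘'[L] (z + w) = addY (℘[L] z) (℘'[L] z) (℘[L] w) (℘'[L] w) := by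
  set c := ℘[L] w with hcdef
  set δ := ℘'[L] w with hδdef
  have hc : δ ^ 2 = 4 * c ^ 3 - L.g₂ * c - L.g₃ := L.derivWeierstrassP_sq w hw
  set U : Set ℂ :=
    ((L.lattice : Set ℂ) ∪ {t : ℂ | t + w ∈ L.lattice} ∪ {t : ℂ | t + -w ∈ L.lattice})ᶜ
  have hUc : IsPreconnected U := isPreconnected_compl
    (((LevelOne.lattice_countable L).union (countable_translate L w)).union
      (countable_translate L (-w)))
  have hUo : IsOpen U :=
    ((L.isClosed_lattice.union (L.isClosed_lattice.preimage (continuous_add_const w))).union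
      (L.isClosed_lattice.preimage (continuous_add_const (-w)))).isOpen_compl
  have hne : ∀ t ∈ U, ℘[L] t ≠ c := by
    intro t ht h
    rcases add_or_sub_mem_of_eq L (fun hm => ht (Or.inl (Or.inl hm))) hw h with h' | h'
    · exact ht (Or.inl (Or.inr h'))
    · exact ht (Or.inr (by simpa [sub_eq_add_neg] using h'))
  set X : ℂ → ℂ := fun t => addX (℘[L] t) (℘'[L] t) c δ
  set Y : ℂ → ℂ := fun t => addY (℘[L] t) (℘'[L] t) c δ
  have hX : ∀ t ∈ U, AnalyticAt ℂ X t ∧ HasDerivAt X (Y t) t ∧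
      HasDerivAt Y (6 * X t ^ 2 - L.g₂ / 2) t := by
    intro t ht
    have htL : t ∉ L.lattice := fun hm => ht (Or.inl (Or.inl hm))
    have e0 : ℘[L] t - c ≠ 0 := sub_ne_zero.2 (hne t ht)
    have hu := L.derivWeierstrassP_sq t htL
    have d1 := hasDerivAt_weierstrassP L htL
    have d2 := hasDerivAt_derivWeierstrassP L htL
    have ds : HasDerivAt (fun s => chord (℘[L] s) (℘'[L] s) c δ) (-2 * (X t - ℘[L] t)) t :=
      ((d2.sub_const δ).fun_div (d1.sub_const c) e0).congr_deriv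
        (deriv_chord_eq (hne t ht) hu hc)
    have dX : HasDerivAt X (Y t) t := by
      refine ((((ds.pow 2).div_const 4).sub d1).sub_const c).congr_deriv ?_
      simp only [X, Y, addY]
      ring
    have dY : HasDerivAt Y (6 * X t ^ 2 - L.g₂ / 2) t :=
      (d2.fun_neg.sub (ds.fun_mul (dX.fun_sub d1))).congr_deriv (deriv_addY_eq (hne t ht) hu hc)
    refine ⟨?_, dX, dY⟩
    have := L.analyticOnNhd_weierstrassP t htL
    have := L.analyticOnNhd_derivWeierstrassP t htL
    simp only [X, addX, chord]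
    fun_prop (disch := assumption)
  -- the continuation of `X` to `0`
  set P := LevelOne.sqMulP L
  have hP : AnalyticAt ℂ P 0 := LevelOne.analyticAt_sqMulP L
  have hP0 : P 0 = 1 := by simp [P, LevelOne.sqMulP]
  have hP1 : HasDerivAt P 0 0 := by
    have h := ((hasDerivAt_pow 2 (0 : ℂ)).fun_mul
      (L.analyticAt_weierstrassPExcept 0).differentiableAt.hasDerivAt).add_const (1 : ℂ)
    refine (h.congr_of_eventuallyEq (Eventually.of_forall fun _ => rfl)).congr_deriv ?_
    simp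
  set R : ℂ → ℂ := fun t => -L.g₂ * t * P t - L.g₃ * t ^ 3 - 2 * δ * (t * deriv P t - 2 * P t) +
    δ ^ 2 * t ^ 3 - 4 * c ^ 2 * t * P t
  set Xe : ℂ → ℂ := fun t => (8 * c * P t ^ 2 + t * R t) / (4 * (P t - c * t ^ 2) ^ 2) - c
  have hden0 : (4 : ℂ) * (P 0 - c * 0 ^ 2) ^ 2 ≠ 0 := by simp [hP0]
  have hP' := hP.deriv
  have hR : AnalyticAt ℂ R 0 := by fun_prop
  have hXe : AnalyticAt ℂ Xe 0 := by
    simp only [Xe]; fun_prop (disch := assumption)
  have hXe0 : Xe 0 = c := by simp [Xe, hP0]; ring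
  have hXe1 : HasDerivAt Xe δ 0 := by
    have hN : HasDerivAt (fun t => 8 * c * P t ^ 2 + t * R t) (4 * δ) 0 :=
      (((hP1.fun_pow 2).const_mul (8 * c)).fun_add
        ((hasDerivAt_id' (0 : ℂ)).fun_mul hR.differentiableAt.hasDerivAt)).congr_deriv
          (by simp [R, hP0]; ring)
    have hD : HasDerivAt (fun t => 4 * (P t - c * t ^ 2) ^ 2) 0 0 :=
      (((hP1.fun_sub ((hasDerivAt_pow 2 (0 : ℂ)).const_mul c)).fun_pow 2).const_mul 4).congr_deriv
        (by simp)
    refine ((hN.fun_div hD hden0).sub_const c).congr_deriv ?_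
    simp [hP0]
    ring
  have hUev : ∀ᶠ t in 𝓝[≠] (0 : ℂ), t ∈ U := by
    have h1 : ∀ v : ℂ, v ∉ L.lattice → ∀ᶠ t in 𝓝[≠] (0 : ℂ), t + v ∉ L.lattice := fun v hv =>
      mem_nhdsWithin_of_mem_nhds ((continuous_add_const v).continuousAt.preimage_mem_nhds
        (L.isClosed_lattice.isOpen_compl.mem_nhds (by simpa using hv)))
    filter_upwards [LevelOne.eventually_weierstrassP_eq L, h1 w hw,
      h1 (-w) fun hm => hw (by simpa using neg_mem hm)] with t h2 h3 h4
    rintro ((h | h) | h)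
    exacts [h2.1 h, h3 h, h4 h]
  have hXeq : ∀ᶠ t in 𝓝[≠] (0 : ℂ), Xe t = X t := by
    filter_upwards [hUev, (LevelOne.eventually_weierstrassP_eq L), LevelOne.sqMulP_relation L,
      self_mem_nhdsWithin, mem_nhdsWithin_of_mem_nhds hP.eventually_analyticAt,
      eventually_nhds_of_nhdsNE (LevelOne.eventually_weierstrassP_eq L)]
        with t htU hPt hrel ht0 hPan hloc
    have ht : t ≠ 0 := ht0
    have hdu : ℘'[L] t = (t * deriv P t - 2 * P t) / t ^ 3 := by
      have e : ℘[L] =ᶠ[𝓝 t] fun s => P s / s ^ 2 := by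
        filter_upwards [hloc] with s hs using hs.2
      rw [← L.deriv_weierstrassP, e.deriv_eq,
        ((hPan.differentiableAt.hasDerivAt).fun_div (hasDerivAt_pow 2 t) (pow_ne_zero 2 ht)).deriv]
      field_simp
      ring
    have e0 : P t - c * t ^ 2 ≠ 0 := fun h => hne t htU (by
      rw [hPt.2, div_eq_iff (pow_ne_zero 2 ht)]
      exact sub_eq_zero.1 h)
    simp only [Xe, X, R, hdu, hPt.2]
    exact (addX_laurent ht e0 hrel).symm
  -- the two sides agree near `0`
  have hEA : AnalyticAt ℂ (fun t => ℘[L] (t + w)) 0 :=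
    (L.analyticOnNhd_weierstrassP _ (by simpa using hw)).comp (by fun_prop)
  set d : ℂ → ℂ := fun t => Xe t - ℘[L] (t + w)
  have hdA : AnalyticAt ℂ d 0 := hXe.sub hEA
  have hev : ∀ᶠ t in 𝓝 (0 : ℂ), d t = 0 := by
    refine eventually_eq_zero_of_ode (S := fun t => 6 * (Xe t + ℘[L] (t + w))) hdA
      (analyticAt_const.mul (hXe.add hEA)) ?_ (by simp [d, hXe0, hcdef]) ?_
    · have hdd := hdA.deriv.deriv
      refine (ContinuousAt.eventuallyEq_nhds_iff_eventuallyEq_nhdsNE hdd.continuousAt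
        (by fun_prop)).1 ?_
      filter_upwards [eventually_nhds_of_nhdsNE (hUev.and hXeq)] with t ht
      have e : ∀ᶠ s in 𝓝 t, HasDerivAt d (Y s - ℘'[L] (s + w)) s := by
        filter_upwards [ht.eventually_nhds] with s hs
        refine ((hX s hs.self_of_nhds.1).2.1.sub ((hasDerivAt_weierstrassP L
          fun hm => hs.self_of_nhds.1
            (Or.inl (Or.inr hm))).comp_add_const s w)).congr_of_eventuallyEq ?_
        filter_upwards [hs] with r hr
        simp [d, hr.2]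
      obtain ⟨htU, htX⟩ := ht.self_of_nhds
      have e' : deriv d =ᶠ[𝓝 t] fun s => Y s - ℘'[L] (s + w) := e.mono fun s hs => hs.deriv
      rw [e'.deriv_eq, ((hX t htU).2.2.fun_sub ((hasDerivAt_derivWeierstrassP L
        fun hm => htU (Or.inl (Or.inr hm))).comp_add_const t w)).deriv]
      simp only [d, htX]
      ring
    · have h2 := (hasDerivAt_weierstrassP L (z := 0 + w) (by simpa using hw)).comp_add_const 0 w
      rw [show deriv d 0 = _ from (hXe1.sub h2).deriv]
      simp [hδdef]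
  obtain ⟨z₀, ⟨hz₀U, hz₀e⟩⟩ :=
    (hUev.and (eventually_nhds_of_nhdsNE
      (hXeq.and (eventually_nhdsWithin_of_eventually_nhds hev)))).exists
  have hEq : Set.EqOn X (fun t => ℘[L] (t + w)) U := by
    refine AnalyticOnNhd.eqOn_of_preconnected_of_eventuallyEq (fun t ht => (hX t ht).1)
      (fun t ht => (L.analyticOnNhd_weierstrassP _ fun hm => ht (Or.inl (Or.inr hm))).fun_comp
        (g := ℘[L]) (f := fun s => s + w) (by fun_prop)) hUc hz₀U ?_
    filter_upwards [hz₀e] with t ht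
    rw [← ht.1]
    exact sub_eq_zero.1 ht.2
  have hzU : z ∈ U := by
    rintro ((h | h) | h)
    exacts [hz h, hs h, hd (by simpa [sub_eq_add_neg] using h)]
  refine ⟨(hEq hzU).symm, ?_⟩
  have h1 : HasDerivAt (fun t => ℘[L] (t + w)) (℘'[L] (z + w)) z :=
    (hasDerivAt_weierstrassP L hs).comp_add_const z w
  exact (((hX z hzU).2.1.congr_of_eventuallyEq
    (hEq.symm.eventuallyEq_of_mem (hUo.mem_nhds hzU))).unique h1).symm

/-! ### The point attached to a complex number -/

section PointMap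

open WeierstrassCurve

variable (V : WeierstrassCurve ℂ) (hΔ : V.Δ ≠ 0) (hg₂ : L.g₂ = V.c₄ / 12)
  (hg₃ : L.g₃ = V.c₆ / 216)

/-- The first coordinate. -/
def xCoord (z : ℂ) : ℂ := ℘[L] z - V.b₂ / 12

/-- The second coordinate. -/
def yCoord (z : ℂ) : ℂ := (℘'[L] z - V.a₁ * xCoord L V z - V.a₃) / 2

theorem psi_xCoord_yCoord (z : ℂ) :
    2 * yCoord L V z + V.a₁ * xCoord L V z + V.a₃ = ℘'[L] z := by
  simp only [yCoord]; ring

include hΔ hg₂ hg₃

theorem nonsingular_coords {z : ℂ} (hz : z ∉ L.lattice) :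
    V.toAffine.Nonsingular (xCoord L V z) (yCoord L V z) := by
  rw [← Affine.equation_iff_nonsingular_of_Δ_ne_zero hΔ, Affine.equation_iff]
  have h := L.derivWeierstrassP_sq z hz
  rw [hg₂, hg₃] at h
  simp only [yCoord, xCoord, c₄, c₆, b₂, b₄, b₆] at h ⊢
  linear_combination h / 4

open Classical in
/-- The point of `z`. -/
def toPointFun (z : ℂ) : V.toAffine.Point :=
  if hz : z ∈ L.lattice then 0
  else .some _ _ (nonsingular_coords L V hΔ hg₂ hg₃ hz)

theorem toPointFun_of_mem {z : ℂ} (hz : z ∈ L.lattice) : toPointFun L V hΔ hg₂ hg₃ z = 0 :=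
  dif_pos hz

theorem toPointFun_of_notMem {z : ℂ} (hz : z ∉ L.lattice) :
    toPointFun L V hΔ hg₂ hg₃ z = .some _ _ (nonsingular_coords L V hΔ hg₂ hg₃ hz) :=
  dif_neg hz

theorem toPointFun_add_mem (z : ℂ) {l : ℂ} (hl : l ∈ L.lattice) :
    toPointFun L V hΔ hg₂ hg₃ (z + l) = toPointFun L V hΔ hg₂ hg₃ z := by
  by_cases hz : z ∈ L.lattice
  · rw [toPointFun_of_mem L V hΔ hg₂ hg₃ hz, toPointFun_of_mem L V hΔ hg₂ hg₃ (add_mem hz hl)]
  · have hzl : z + l ∉ L.lattice := fun h => hz (by simpa using sub_mem h hl)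
    rw [toPointFun_of_notMem L V hΔ hg₂ hg₃ hz, toPointFun_of_notMem L V hΔ hg₂ hg₃ hzl,
      Affine.Point.some.injEq]
    have e1 : ℘[L] (z + l) = ℘[L] z := L.weierstrassP_add_coe z ⟨l, hl⟩
    have e2 : ℘'[L] (z + l) = ℘'[L] z := L.derivWeierstrassP_add_coe z ⟨l, hl⟩
    simp [yCoord, xCoord, e1, e2]

theorem toPointFun_neg (z : ℂ) :
    toPointFun L V hΔ hg₂ hg₃ (-z) = -toPointFun L V hΔ hg₂ hg₃ z := by
  by_cases hz : z ∈ L.lattice
  · rw [toPointFun_of_mem L V hΔ hg₂ hg₃ hz, toPointFun_of_mem L V hΔ hg₂ hg₃ (neg_mem hz),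
      neg_zero]
  · have hz' : -z ∉ L.lattice := fun h => hz (by simpa using neg_mem h)
    rw [toPointFun_of_notMem L V hΔ hg₂ hg₃ hz, toPointFun_of_notMem L V hΔ hg₂ hg₃ hz',
      Affine.Point.neg_some, Affine.Point.some.injEq]
    simp only [yCoord, xCoord, Affine.negY, L.weierstrassP_neg, L.derivWeierstrassP_neg]
    exact ⟨trivial, by ring⟩

theorem toPointFun_add_of_sub_notMem {z w : ℂ} (hd : z - w ∉ L.lattice) :
    toPointFun L V hΔ hg₂ hg₃ (z + w) =
      toPointFun L V hΔ hg₂ hg₃ z + toPointFun L V hΔ hg₂ hg₃ w := by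
  classical
  by_cases hz : z ∈ L.lattice
  · rw [toPointFun_of_mem L V hΔ hg₂ hg₃ hz, zero_add, add_comm z w,
      toPointFun_add_mem L V hΔ hg₂ hg₃ w hz]
  by_cases hw : w ∈ L.lattice
  · rw [toPointFun_of_mem L V hΔ hg₂ hg₃ hw, add_zero, toPointFun_add_mem L V hΔ hg₂ hg₃ z hw]
  by_cases hs : z + w ∈ L.lattice
  · rw [toPointFun_of_mem L V hΔ hg₂ hg₃ hs,
      show toPointFun L V hΔ hg₂ hg₃ w = toPointFun L V hΔ hg₂ hg₃ (-z) by
        rw [show w = -z + (z + w) by ring, toPointFun_add_mem L V hΔ hg₂ hg₃ _ hs],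
      toPointFun_neg L V hΔ hg₂ hg₃, add_neg_cancel]
  obtain ⟨hX, hY⟩ := weierstrassP_add L hz hw hs hd
  have hu : ℘[L] z ≠ ℘[L] w := fun h =>
    (add_or_sub_mem_of_eq L hz hw h).elim hs hd
  have hx : xCoord L V z ≠ xCoord L V w := by simpa [xCoord] using hu
  rw [toPointFun_of_notMem L V hΔ hg₂ hg₃ hz, toPointFun_of_notMem L V hΔ hg₂ hg₃ hw,
    toPointFun_of_notMem L V hΔ hg₂ hg₃ hs,
    Affine.Point.add_some (fun h => hx h.1), Affine.Point.some.injEq]
  have hl : V.toAffine.slope (xCoord L V z) (xCoord L V w) (yCoord L V z) (yCoord L V w) =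
      (chord (℘[L] z) (℘'[L] z) (℘[L] w) (℘'[L] w) - V.a₁) / 2 := by
    rw [Affine.slope_of_X_ne hx]
    simp only [chord, yCoord, xCoord, sub_sub_sub_cancel_right]
    field_simp
    ring
  have hx3 : xCoord L V (z + w) = V.toAffine.addX (xCoord L V z) (xCoord L V w)
      (V.toAffine.slope (xCoord L V z) (xCoord L V w) (yCoord L V z) (yCoord L V w)) := by
    rw [hl, xCoord, hX]
    simp only [Affine.addX, addX, xCoord, b₂]
    ring
  refine ⟨hx3, ?_⟩
  rw [Affine.addY, Affine.negY, Affine.negAddY, ← hx3, hl, yCoord, hY]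
  simp only [addY, yCoord, xCoord, hX]
  ring

/-- The point attached to a complex number is additive. -/
theorem toPointFun_add (z w : ℂ) :
    toPointFun L V hΔ hg₂ hg₃ (z + w) =
      toPointFun L V hΔ hg₂ hg₃ z + toPointFun L V hΔ hg₂ hg₃ w := by
  by_cases hd : z - w ∈ L.lattice
  swap
  · exact toPointFun_add_of_sub_notMem L V hΔ hg₂ hg₃ hd
  obtain ⟨t, ht⟩ : ∃ t : ℂ, t ∉ {t : ℂ | t ∈ L.lattice} ∪ {t : ℂ | z - 2 * t ∈ L.lattice} ∪
      {t : ℂ | z + w - 2 * t ∈ L.lattice} := by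
    have hpre : ∀ v : ℂ, {t : ℂ | v - 2 * t ∈ L.lattice}.Countable := fun v =>
      (LevelOne.lattice_countable L).preimage
        ((sub_right_injective (b := v)).comp (mul_right_injective₀ two_ne_zero))
    exact ((((LevelOne.lattice_countable L).union (hpre z)).union (hpre (z + w))).dense_compl
      ℂ).nonempty
  simp only [Set.mem_union, Set.mem_ofPred_eq, not_or] at ht
  obtain ⟨⟨ht1, ht2⟩, ht3⟩ := ht
  have e1 : toPointFun L V hΔ hg₂ hg₃ (z + w) =
      toPointFun L V hΔ hg₂ hg₃ (z + w - t) + toPointFun L V hΔ hg₂ hg₃ t := by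
    rw [← toPointFun_add_of_sub_notMem L V hΔ hg₂ hg₃ (z := z + w - t) (w := t)
      (by rwa [show z + w - t - t = z + w - 2 * t by ring]), sub_add_cancel]
  have e2 : toPointFun L V hΔ hg₂ hg₃ (z + w - t) =
      toPointFun L V hΔ hg₂ hg₃ (z - t) + toPointFun L V hΔ hg₂ hg₃ w := by
    rw [← toPointFun_add_of_sub_notMem L V hΔ hg₂ hg₃ (z := z - t) (w := w) fun h => ht1 (by
      have := sub_mem hd h
      rwa [show z - w - (z - t - w) = t by ring] at this), sub_add_eq_add_sub]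
  have e3 : toPointFun L V hΔ hg₂ hg₃ z =
      toPointFun L V hΔ hg₂ hg₃ (z - t) + toPointFun L V hΔ hg₂ hg₃ t := by
    rw [← toPointFun_add_of_sub_notMem L V hΔ hg₂ hg₃ (z := z - t) (w := t) fun h => ht2
      (by rwa [show z - t - t = z - 2 * t by ring] at h), sub_add_cancel]
  rw [e1, e2, e3]
  abel

/-- The uniformisation. -/
def toPoint : ℂ →+ V.toAffine.Point where
  toFun := toPointFun L V hΔ hg₂ hg₃
  map_zero' := toPointFun_of_mem L V hΔ hg₂ hg₃ (zero_mem _)
  map_add' := toPointFun_add L V hΔ hg₂ hg₃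

/-- The kernel of the uniformisation is the lattice. -/
theorem toPoint_eq_zero_iff (z : ℂ) : toPoint L V hΔ hg₂ hg₃ z = 0 ↔ z ∈ L.lattice := by
  refine ⟨fun h => ?_, toPointFun_of_mem L V hΔ hg₂ hg₃⟩
  by_contra hz
  exact Affine.Point.some_ne_zero _ ((toPointFun_of_notMem L V hΔ hg₂ hg₃ hz).symm.trans h)

theorem toPoint_apply_of_notMem {z : ℂ} (hz : z ∉ L.lattice) :
    toPoint L V hΔ hg₂ hg₃ z = .some _ _ (nonsingular_coords L V hΔ hg₂ hg₃ hz) :=
  toPointFun_of_notMem L V hΔ hg₂ hg₃ hz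

/-- The uniformisation is surjective. -/
theorem toPoint_surjective : Function.Surjective (toPoint L V hΔ hg₂ hg₃) := by
  rintro (_ | ⟨x, y, h⟩)
  · exact ⟨0, map_zero _⟩
  obtain ⟨z, hz, hzx⟩ := exists_weierstrassP_eq L (x + V.b₂ / 12)
  have hx : xCoord L V z = x := by rw [xCoord, hzx]; ring
  have hz' := nonsingular_coords L V hΔ hg₂ hg₃ hz
  rcases Affine.Y_eq_of_X_eq hz'.left h.left hx with hy | hy
  · exact ⟨z, by rw [toPoint_apply_of_notMem L V hΔ hg₂ hg₃ hz, Affine.Point.some.injEq]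
                 exact ⟨hx, hy⟩⟩
  · refine ⟨-z, ?_⟩
    rw [map_neg, toPoint_apply_of_notMem L V hΔ hg₂ hg₃ hz, Affine.Point.neg_some,
      Affine.Point.some.injEq]
    refine ⟨hx, ?_⟩
    rw [hy, hx, Affine.negY_negY]

end PointMap

end Fermat.Agent.MazurStep.Moduli
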